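/-
S59lib / R3 / Char  (helper9) — characters of a finite abelian group with values in `ℚ̄`:
finiteness, cardinality, separation, orthogonality and Fourier inversion (Mathlib has these for `ℂ`, and in
multiplicative form for monoids with enough roots of unity).
-/
import Mathlib

set_option autoImplicit false
set_option linter.unusedSectionVars false
set_option linter.style.haveILetI false

noncomputable section

namespace Fermat.Agent.S59lib.R3

local notation "Qb" => AlgebraicClosure ℚ

variable {K : Type*} [AddCommGroup K] [Finite K]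

/-- `ℚ̄` has enough roots of unity for `K` -/
theorem hasEnoughRootsOfUnity_Qb :
    HasEnoughRootsOfUnity Qb (Monoid.exponent (Multiplicative K)) := by
  haveI : NeZero ((Monoid.exponent (Multiplicative K) : ℕ) : ℚ) :=
    ⟨Nat.cast_ne_zero.mpr Monoid.exponent_ne_zero_of_finite⟩
  infer_instance

/-- characters as homomorphisms into the units -/
def addCharToHom (χ : AddChar K Qb) : Multiplicative K →* Qbˣ :=
  (AddChar.toMonoidHomEquiv χ).toHomUnits

theorem addCharToHom_apply (χ : AddChar K Qb) (y : K) :
    ((addCharToHom χ (Multiplicative.ofAdd y) : Qbˣ) : Qb) = χ y := rfl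

/-- homomorphisms into the units as characters -/
def homToAddChar (f : Multiplicative K →* Qbˣ) : AddChar K Qb :=
  AddChar.toMonoidHomEquiv.symm ((Units.coeHom Qb).comp f)

theorem homToAddChar_apply (f : Multiplicative K →* Qbˣ) (y : K) :
    homToAddChar f y = ((f (Multiplicative.ofAdd y) : Qbˣ) : Qb) := rfl

/-- the equivalence between characters and homomorphisms into the units -/
def addCharEquivHom : AddChar K Qb ≃ (Multiplicative K →* Qbˣ) where
  toFun := addCharToHom
  invFun := homToAddChar
  left_inv χ := by
    ext y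
    rw [homToAddChar_apply, addCharToHom_apply]
  right_inv f := by
    ext y
    exact addCharToHom_apply (homToAddChar f) (Multiplicative.toAdd y)

instance finite_addChar : Finite (AddChar K Qb) := by
  haveI := hasEnoughRootsOfUnity_Qb (K := K)
  exact Finite.of_equiv _ addCharEquivHom.symm

theorem card_addChar : Nat.card (AddChar K Qb) = Nat.card K := by
  haveI := hasEnoughRootsOfUnity_Qb (K := K)
  rw [Nat.card_congr (addCharEquivHom (K := K)),
    CommGroup.card_monoidHom_of_hasEnoughRootsOfUnity (Multiplicative K) Qb]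
  rfl

/-- characters separate points -/
theorem exists_addChar_ne_one {y : K} (hy : y ≠ 0) : ∃ χ : AddChar K Qb, χ y ≠ 1 := by
  haveI := hasEnoughRootsOfUnity_Qb (K := K)
  obtain ⟨f, hf⟩ := CommGroup.exists_apply_ne_one_of_hasEnoughRootsOfUnity (Multiplicative K) Qb
    (a := Multiplicative.ofAdd y) (fun h => hy (by simpa using h))
  refine ⟨homToAddChar f, fun h => hf ?_⟩
  rw [homToAddChar_apply] at h
  exact Units.ext h

/-- orthogonality (second form): the sum of all characters at a point -/
theorem sum_addChar_apply [Fintype (AddChar K Qb)] [DecidableEq K] (y : K) :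
    ∑ χ : AddChar K Qb, χ y = if y = 0 then (Nat.card K : Qb) else 0 := by
  split_ifs with hy
  · subst hy
    simp only [AddChar.map_zero_eq_one, Finset.sum_const, Finset.card_univ, nsmul_eq_mul, mul_one]
    rw [← card_addChar (K := K), Nat.card_eq_fintype_card]
  · obtain ⟨χ₀, hχ₀⟩ := exists_addChar_ne_one hy
    refine eq_zero_of_mul_eq_self_left hχ₀ ?_
    rw [Finset.mul_sum]
    exact Fintype.sum_equiv (Equiv.mulLeft χ₀) _ _ fun χ => (AddChar.mul_apply χ₀ χ y).symm

/-- **Fourier inversion** on a finite abelian group, with values in `ℚ̄` -/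
theorem fourier_inversion [Fintype K] [Fintype (AddChar K Qb)] (f : K → Qb) (y : K) :
    f y = ∑ χ : AddChar K Qb, ((Nat.card K : Qb)⁻¹ * ∑ z, f z * χ (-z)) * χ y := by
  classical
  have hK : (Nat.card K : Qb) ≠ 0 := Nat.cast_ne_zero.mpr Nat.card_pos.ne'
  have h1 : ∀ χ : AddChar K Qb, ((Nat.card K : Qb)⁻¹ * ∑ z, f z * χ (-z)) * χ y =
      (Nat.card K : Qb)⁻¹ * ∑ z, f z * χ (y - z) := by
    intro χ
    rw [mul_assoc, Finset.sum_mul]
    congr 1
    refine Finset.sum_congr rfl fun z _ => ?_
    rw [sub_eq_add_neg, AddChar.map_add_eq_mul]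
    ring
  simp_rw [h1]
  rw [← Finset.mul_sum, Finset.sum_comm]
  simp_rw [← Finset.mul_sum, sum_addChar_apply]
  rw [Finset.sum_eq_single y]
  · rw [sub_self, if_pos rfl]
    field_simp
  · intro z _ hz
    rw [if_neg (sub_ne_zero.mpr (Ne.symm hz)), mul_zero]
  · intro h
    exact absurd (Finset.mem_univ _) h

end Fermat.Agent.S59lib.R3
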