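/-
S59lib / R3 / Hilbert  (helper9) — Project I, risk item R3: Hilbert 90 for locally constant cocycles.

`U ≤ G_ℚ` any subgroup, `a : U → ℚ̄ˣ` a `1`-cocycle (`a (σ τ) = a σ · σ (a τ)`) which only depends on the restriction
of `σ` to a finite extension `E/ℚ`.  Then `a` is a coboundary: `σ t = a σ · t` for some `t ≠ 0` (Poincaré series over
the finitely many embeddings `E → ℚ̄`, Dedekind independence).
-/
import Mathlib

set_option autoImplicit false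
set_option linter.unusedSectionVars false
set_option linter.style.haveILetI false

noncomputable section

namespace Fermat.Agent.S59lib.R3

local notation "Qb" => AlgebraicClosure ℚ
local notation "GQ" => (AlgebraicClosure ℚ ≃ₐ[ℚ] AlgebraicClosure ℚ)

/-- **Hilbert 90** for a locally constant cocycle on a subgroup of `G_ℚ`. -/
theorem hilbert90 (U : Subgroup GQ) (a : GQ → Qb) (ha0 : ∀ σ ∈ U, a σ ≠ 0)
    (hcoc : ∀ σ ∈ U, ∀ τ ∈ U, a (σ * τ) = a σ * σ (a τ))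
    (E : IntermediateField ℚ Qb) [FiniteDimensional ℚ E]
    (hloc : ∀ σ ∈ U, ∀ τ ∈ U, (∀ x ∈ E, σ x = τ x) → a σ = a τ) :
    ∃ t : Qb, t ≠ 0 ∧ ∀ σ ∈ U, σ t = a σ * t := by
  classical
  let res : GQ → (E →ₐ[ℚ] Qb) := fun τ => (τ : Qb →ₐ[ℚ] Qb).comp E.val
  have hres : ∀ τ (x : E), res τ x = τ (x : Qb) := fun _ _ => rfl
  let c : (E →ₐ[ℚ] Qb) → Qb := fun h => if hh : ∃ τ ∈ U, res τ = h then a hh.choose else 0
  have hc : ∀ τ ∈ U, c (res τ) = a τ := by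
    intro τ hτ
    have hh : ∃ τ' ∈ U, res τ' = res τ := ⟨τ, hτ, rfl⟩
    show (if hh : ∃ τ' ∈ U, res τ' = res τ then a hh.choose else 0) = a τ
    rw [dif_pos hh]
    obtain ⟨h1, h2⟩ := hh.choose_spec
    exact hloc _ h1 _ hτ (fun x hx => DFunLike.congr_fun h2 ⟨x, hx⟩)
  have hc0 : ∀ h : E →ₐ[ℚ] Qb, (¬ ∃ τ ∈ U, res τ = h) → c h = 0 := by
    intro h hh
    show (if hh : ∃ τ' ∈ U, res τ' = h then a hh.choose else 0) = 0
    rw [dif_neg hh]
  -- the action of `σ` on the embeddings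
  let act : GQ → (E →ₐ[ℚ] Qb) ≃ (E →ₐ[ℚ] Qb) := fun σ =>
    { toFun := fun h => (σ : Qb →ₐ[ℚ] Qb).comp h
      invFun := fun h => ((σ⁻¹ : GQ) : Qb →ₐ[ℚ] Qb).comp h
      left_inv := fun h => by
        ext x
        show σ⁻¹ (σ (h x)) = h x
        rw [← AlgEquiv.mul_apply, inv_mul_cancel, AlgEquiv.one_apply]
      right_inv := fun h => by
        ext x
        show σ (σ⁻¹ (h x)) = h x
        rw [← AlgEquiv.mul_apply, mul_inv_cancel, AlgEquiv.one_apply] }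
  have hact : ∀ σ τ, act σ (res τ) = res (σ * τ) := fun σ τ => rfl
  -- the key identity
  have hkey : ∀ σ ∈ U, ∀ h : E →ₐ[ℚ] Qb, σ (c h) = (a σ)⁻¹ * c (act σ h) := by
    intro σ hσ h
    by_cases hh : ∃ τ ∈ U, res τ = h
    · obtain ⟨τ, hτ, rfl⟩ := hh
      rw [hact, hc τ hτ, hc _ (U.mul_mem hσ hτ), hcoc σ hσ τ hτ, ← mul_assoc,
        inv_mul_cancel₀ (ha0 σ hσ), one_mul]
    · have hh' : ¬ ∃ τ ∈ U, res τ = act σ h := by
        rintro ⟨τ, hτ, e⟩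
        refine hh ⟨σ⁻¹ * τ, U.mul_mem (U.inv_mem hσ) hτ, ?_⟩
        rw [← hact, e]
        exact (act σ).left_inv h
      rw [hc0 h hh, hc0 _ hh', map_zero, mul_zero]
  -- the Poincaré series
  let s : E → Qb := fun θ => ∑ h : E →ₐ[ℚ] Qb, c h * h θ
  have hs : ∀ σ ∈ U, ∀ θ, σ (s θ) = (a σ)⁻¹ * s θ := by
    intro σ hσ θ
    show σ (∑ h : E →ₐ[ℚ] Qb, c h * h θ) = (a σ)⁻¹ * ∑ h : E →ₐ[ℚ] Qb, c h * h θ
    rw [map_sum, Finset.mul_sum]
    refine Fintype.sum_equiv (act σ) _ _ fun h => ?_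
    rw [map_mul, hkey σ hσ h, mul_assoc]
    rfl
  -- Dedekind independence
  have hex : ∃ θ, s θ ≠ 0 := by
    by_contra hcon
    push Not at hcon
    have hli := linearIndependent_toLinearMap ℚ E Qb
    rw [Fintype.linearIndependent_iff] at hli
    have h0 : ∑ h : E →ₐ[ℚ] Qb, c h • (h.toLinearMap : E →ₗ[ℚ] Qb) = 0 := by
      ext θ
      rw [LinearMap.sum_apply, LinearMap.zero_apply]
      exact hcon θ
    have h1 := hli c h0 (res 1)
    rw [hc 1 U.one_mem] at h1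
    exact ha0 1 U.one_mem h1
  obtain ⟨θ, hθ⟩ := hex
  refine ⟨(s θ)⁻¹, inv_ne_zero hθ, fun σ hσ => ?_⟩
  rw [map_inv₀, hs σ hσ θ, mul_inv, inv_inv]

end Fermat.Agent.S59lib.R3
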