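/-
S59lib / R3 / Idx  (helper9) — Project I, risk item R3: the Kummer index of an ordinary matrix representation.

`B` a finite ring with `p^k = 0`, `M : G_ℚ → M₂(B)` a representation which on the decomposition group `D_A` is upper
triangular, with lower right entry `1` on inertia and determinant the cyclotomic character (`OrdMat`).  For an
additive character `ψ` of `B`, `σ ↦ ψ (M σ 0 1)` is a cocycle `I_A → μ_{p^k}`, hence a coboundary `σ t / t`
(`hilbert90`); `t ^ p^k` is inertia-fixed, so `v(t)^(p^k) = v(p)^n`: the **Kummer index** `n` (`KumIdx`), well defined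
mod `p^k`, additive in `ψ`, invariant under `ψ ↦ ψ (z² ·)`, `z = M φ 1 1`, `φ ∈ D_A`, compatible with change of level.
-/
import Mathlib
import Fermat.Agent.S59lib.R3.Hilbert
import Fermat.Agent.S59lib.R3.Char
import Fermat.Agent.S44lib.F.Fixed
import Fermat.Agent.S19lib.F.ToIface
import Fermat.Agent.S13lib.ValAut

set_option autoImplicit false
set_option linter.unusedSectionVars false
set_option linter.style.haveILetI false

noncomputable section

namespace Fermat.Agent.S59lib.R3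

open Fermat.Agent.S19lib

local notation "Qb" => AlgebraicClosure ℚ
local notation "GQ" => (AlgebraicClosure ℚ ≃ₐ[ℚ] AlgebraicClosure ℚ)

variable {A : ValuationSubring Qb} {p k : ℕ} {B : Type*} [CommRing B]

/-- the valuation is invariant under the decomposition group -/
theorem val_DA {σ : GQ} (hσ : σ ∈ DA A) (x : Qb) : A.valuation (σ x) = A.valuation x := by
  haveI : Algebra.IsAlgebraic ℚ Qb := AlgebraicClosure.isAlgebraic ℚ
  refine Fermat.Agent.S13lib.val_algEquiv_eq σ (fun y => ?_) x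
  rw [A.valuation_le_one_iff, A.valuation_le_one_iff]
  constructor
  · intro h
    have h1 := F.smul_mem_of_mem_DA ((DA A).inv_mem hσ) h
    rwa [← AlgEquiv.mul_apply, inv_mul_cancel, AlgEquiv.one_apply] at h1
  · exact F.smul_mem_of_mem_DA hσ

/-- every automorphism acts on the `n`-th roots of unity by a power -/
theorem exists_pow_action (σ : GQ) (n : ℕ) [NeZero n] :
    ∃ a : ℕ, ∀ μ : Qb, μ ^ n = 1 → σ μ = μ ^ a := by
  refine ⟨(modularCyclotomicCharacter.toFun n (σ : Qb ≃+* Qb)).val, fun μ hμ => ?_⟩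
  have hμ0 : μ ≠ 0 := fun h => by
    rw [h, zero_pow (NeZero.ne n)] at hμ
    exact zero_ne_one hμ
  have ht : Units.mk0 μ hμ0 ∈ rootsOfUnity n Qb := by
    rw [mem_rootsOfUnity]
    ext
    simpa using hμ
  have := modularCyclotomicCharacter.toFun_spec' (σ : Qb ≃+* Qb) ht
  simpa using this

/-- multiplication by `r` inside a character -/
def chMul (ψ : AddChar B Qb) (r : B) : AddChar B Qb := ψ.compAddMonoidHom (AddMonoidHom.mulLeft r)

@[simp] theorem chMul_apply (ψ : AddChar B Qb) (r y : B) : chMul ψ r y = ψ (r * y) := rfl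

/-- **ordinary matrix data** at a finite level -/
structure OrdMat (A : ValuationSubring Qb) (p k : ℕ) (M : GQ →* Matrix (Fin 2) (Fin 2) B) : Prop where
  pk : ((p ^ k : ℕ) : B) = 0
  tri : ∀ σ ∈ DA A, M σ 1 0 = 0
  one : ∀ σ ∈ IA A, M σ 1 1 = 1
  cyc : ∀ σ ∈ DA A, ∀ a : ℕ, (∀ μ : Qb, μ ^ p ^ k = 1 → σ μ = μ ^ a) →
    M σ 0 0 * M σ 1 1 = (a : B)
  cont : ∃ E : IntermediateField ℚ Qb, FiniteDimensional ℚ E ∧
    ∀ σ τ : GQ, (∀ x ∈ E, σ x = τ x) → M σ = M τ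

variable {M : GQ →* Matrix (Fin 2) (Fin 2) B}

theorem OrdMat.char_pow (h : OrdMat A p k M) (ψ : AddChar B Qb) (y : B) : ψ y ^ p ^ k = 1 := by
  rw [← AddChar.map_nsmul_eq_pow, nsmul_eq_mul, h.pk, zero_mul, AddChar.map_zero_eq_one]

theorem OrdMat.char_act (hp : p.Prime) (h : OrdMat A p k M) {σ : GQ} (hσ : σ ∈ DA A)
    (ψ : AddChar B Qb) (y : B) : σ (ψ y) = ψ (M σ 0 0 * M σ 1 1 * y) := by
  haveI : NeZero (p ^ k) := ⟨pow_ne_zero _ hp.ne_zero⟩
  obtain ⟨a, ha⟩ := exists_pow_action σ (p ^ k)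
  rw [ha _ (h.char_pow ψ y), h.cyc σ hσ a ha, ← AddChar.map_nsmul_eq_pow, nsmul_eq_mul]

theorem OrdMat.char_act_IA (hp : p.Prime) (h : OrdMat A p k M) {σ : GQ} (hσ : σ ∈ IA A)
    (ψ : AddChar B Qb) (y : B) : σ (ψ y) = ψ (M σ 0 0 * y) := by
  rw [h.char_act hp (F.IA_le_DA A hσ), h.one σ hσ, mul_one]

theorem mat_mul_01 (σ τ : GQ) :
    M (σ * τ) 0 1 = M σ 0 0 * M τ 0 1 + M σ 0 1 * M τ 1 1 := by
  rw [map_mul, Matrix.mul_apply, Fin.sum_univ_two]

/-- the **Kummer index**: `n` is an index of `ψ` -/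
def KumIdx (A : ValuationSubring Qb) (p k : ℕ) (M : GQ →* Matrix (Fin 2) (Fin 2) B)
    (ψ : AddChar B Qb) (n : ℤ) : Prop :=
  ∃ t : Qb, t ≠ 0 ∧ A.valuation t ^ p ^ k = A.valuation ((p : ℕ) : Qb) ^ n ∧
    ∀ σ ∈ IA A, σ t = ψ (M σ 0 1) * t

/-- existence of the index: Hilbert 90 -/
theorem OrdMat.exists_kumIdx (hp : p.Prime) (hA : A.LiesOverPrime p) (h : OrdMat A p k M)
    (ψ : AddChar B Qb) : ∃ n, KumIdx A p k M ψ n := by
  obtain ⟨E, hE, hcont⟩ := h.cont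
  haveI := hE
  obtain ⟨t, ht0, ht⟩ := hilbert90 (IA A) (fun σ => ψ (M σ 0 1))
    (fun σ _ => (AddChar.val_isUnit ψ _).ne_zero)
    (fun σ hσ τ hτ => by
      beta_reduce
      rw [mat_mul_01, h.one τ hτ, mul_one, AddChar.map_add_eq_mul, h.char_act_IA hp hσ, mul_comm])
    E (fun σ _ τ _ hστ => by
      beta_reduce
      rw [hcont σ τ hστ])
  have hfix : ∀ σ ∈ IA A, σ (t ^ p ^ k) = t ^ p ^ k := by
    intro σ hσ
    rw [map_pow, ht σ hσ, mul_pow, h.char_pow, one_mul]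
  obtain ⟨n, hn⟩ := Fermat.Agent.S44lib.F.val_of_IA_fixed hp hA (pow_ne_zero _ ht0) hfix
  exact ⟨n, t, ht0, by rw [← map_pow]; exact hn, ht⟩

/-! ### the calculus of the index -/

theorem val_p_zpow_inj (hp : p.Prime) (hA : A.LiesOverPrime p) {n n' : ℤ}
    (h : A.valuation ((p : ℕ) : Qb) ^ n = A.valuation ((p : ℕ) : Qb) ^ n') : n = n' := by
  have h0 : 0 < A.valuation ((p : ℕ) : Qb) :=
    zero_lt_iff.mpr (Fermat.Agent.S44lib.F.val_p_ne_zero hp)
  have h1 : A.valuation ((p : ℕ) : Qb) < 1 := Fermat.Agent.S44lib.F.val_p_lt_one hA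
  exact (zpow_right_strictAnti₀ h0 h1).injective h

/-- the index is well defined modulo `p^k` -/
theorem KumIdx.sub_dvd (hp : p.Prime) (hA : A.LiesOverPrime p) {ψ : AddChar B Qb} {n n' : ℤ}
    (h1 : KumIdx A p k M ψ n) (h2 : KumIdx A p k M ψ n') : ((p : ℤ) ^ k) ∣ n - n' := by
  obtain ⟨t, ht0, htv, ht⟩ := h1
  obtain ⟨t', ht0', htv', ht'⟩ := h2
  have hfix : ∀ σ ∈ IA A, σ (t / t') = t / t' := by
    intro σ hσ
    rw [map_div₀, ht σ hσ, ht' σ hσ, mul_div_mul_left _ _ (AddChar.val_isUnit ψ _).ne_zero]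
  obtain ⟨e, he⟩ := Fermat.Agent.S44lib.F.val_of_IA_fixed hp hA (div_ne_zero ht0 ht0') hfix
  have hv' : A.valuation t' ≠ 0 := (Valuation.ne_zero_iff _).mpr ht0'
  have hvt : A.valuation t = A.valuation ((p : ℕ) : Qb) ^ e * A.valuation t' := by
    rw [← he, map_div₀, div_mul_cancel₀ _ hv']
  have hpv : A.valuation ((p : ℕ) : Qb) ≠ 0 := Fermat.Agent.S44lib.F.val_p_ne_zero hp
  have key : A.valuation ((p : ℕ) : Qb) ^ n = A.valuation ((p : ℕ) : Qb) ^ (e * (p : ℤ) ^ k + n') := by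
    rw [← htv, hvt, mul_pow, htv', zpow_add₀ hpv, zpow_mul, ← zpow_natCast (_ ^ e)]
    norm_cast
  have := val_p_zpow_inj hp hA key
  exact ⟨e, by rw [this]; ring⟩

theorem KumIdx.one_zero : KumIdx A p k M (1 : AddChar B Qb) 0 :=
  ⟨1, one_ne_zero, by rw [map_one, one_pow, zpow_zero], fun σ _ => by
    rw [map_one, AddChar.one_apply, one_mul]⟩

theorem KumIdx.mul {ψ ψ' : AddChar B Qb} {n n' : ℤ} (hp : p.Prime)
    (h1 : KumIdx A p k M ψ n) (h2 : KumIdx A p k M ψ' n') : KumIdx A p k M (ψ * ψ') (n + n') := by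
  obtain ⟨t, ht0, htv, ht⟩ := h1
  obtain ⟨t', ht0', htv', ht'⟩ := h2
  refine ⟨t * t', mul_ne_zero ht0 ht0', ?_, fun σ hσ => ?_⟩
  · rw [map_mul, mul_pow, htv, htv', zpow_add₀ (Fermat.Agent.S44lib.F.val_p_ne_zero hp)]
  · rw [map_mul, ht σ hσ, ht' σ hσ, AddChar.mul_apply]
    ring

/-- changing the index by a multiple of `p^k` -/
theorem KumIdx.shift {ψ : AddChar B Qb} {n : ℤ} (hp : p.Prime) (h1 : KumIdx A p k M ψ n) (e : ℤ) :
    KumIdx A p k M ψ (n + (p : ℤ) ^ k * e) := by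
  obtain ⟨t, ht0, htv, ht⟩ := h1
  have hp0 : ((p : ℕ) : Qb) ≠ 0 := by exact_mod_cast hp.ne_zero
  refine ⟨t * ((p : ℕ) : Qb) ^ e, mul_ne_zero ht0 (zpow_ne_zero _ hp0), ?_, fun σ hσ => ?_⟩
  · rw [map_mul, mul_pow, htv, map_zpow₀, zpow_add₀ (Fermat.Agent.S44lib.F.val_p_ne_zero hp),
      mul_comm ((p : ℤ) ^ k) e, zpow_mul, ← zpow_natCast (_ ^ e)]
    norm_cast
  · rw [map_mul, ht σ hσ, map_zpow₀, map_natCast, mul_assoc]

/-- an index divisible by `p^k` gives a unit generator -/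
theorem KumIdx.exists_unit {ψ : AddChar B Qb} {n : ℤ} (hp : p.Prime) (h1 : KumIdx A p k M ψ n)
    (hn : ((p : ℤ) ^ k) ∣ n) :
    ∃ t : Qb, A.valuation t = 1 ∧ ∀ σ ∈ IA A, σ t = ψ (M σ 0 1) * t := by
  obtain ⟨e, rfl⟩ := hn
  have h2 := h1.shift hp (-e)
  rw [mul_neg, add_neg_cancel] at h2
  obtain ⟨t, ht0, htv, ht⟩ := h2
  refine ⟨t, ?_, ht⟩
  rw [zpow_zero] at htv
  have h3 : A.valuation t ^ p ^ k = 1 ^ p ^ k := by rw [htv, one_pow]
  exact (pow_left_inj₀ zero_le zero_le (pow_ne_zero _ hp.ne_zero)).mp h3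

/-- **invariance under the decomposition group** -/
theorem KumIdx.conj (hp : p.Prime) (h : OrdMat A p k M) {φ : GQ} (hφ : φ ∈ DA A)
    {ψ : AddChar B Qb} {n : ℤ} (h1 : KumIdx A p k M ψ n) :
    KumIdx A p k M (chMul ψ (M φ 1 1 ^ 2)) n := by
  obtain ⟨t, ht0, htv, ht⟩ := h1
  set u : Qb := ψ (M φ 0 1 * M φ 1 1) with hu
  have hu0 : u ≠ 0 := (AddChar.val_isUnit ψ _).ne_zero
  have hu1 : A.valuation u ^ p ^ k = 1 := by rw [← map_pow, hu, h.char_pow, map_one]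
  refine ⟨φ t / u, div_ne_zero ((map_ne_zero _).mpr ht0) hu0, ?_, fun σ hσ => ?_⟩
  · rw [map_div₀, div_pow, hu1, div_one, val_DA hφ, htv]
  · have hc : φ⁻¹ * σ * φ ∈ IA A := F.conj_mem_IA hφ hσ
    have e1 : σ (φ t) = φ ((φ⁻¹ * σ * φ) t) := by
      simp [AlgEquiv.mul_apply]
    -- the matrix identity
    have hmat : M φ * M (φ⁻¹ * σ * φ) = M σ * M φ := by
      rw [← map_mul, ← map_mul]
      congr 1
      group
    have h01 := congrFun (congrFun hmat 0) 1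
    rw [Matrix.mul_apply, Fin.sum_univ_two, Matrix.mul_apply, Fin.sum_univ_two, h.one _ hc,
      mul_one] at h01
    have key : M φ 0 0 * M φ 1 1 * M (φ⁻¹ * σ * φ) 0 1 =
        (M σ 0 0 - 1) * (M φ 0 1 * M φ 1 1) + M φ 1 1 ^ 2 * M σ 0 1 := by
      have : M φ 0 0 * M (φ⁻¹ * σ * φ) 0 1 = M σ 0 0 * M φ 0 1 + M σ 0 1 * M φ 1 1 - M φ 0 1 := by
        rw [← h01]
        ring
      calc M φ 0 0 * M φ 1 1 * M (φ⁻¹ * σ * φ) 0 1
          = M φ 1 1 * (M φ 0 0 * M (φ⁻¹ * σ * φ) 0 1) := by ring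
        _ = _ := by rw [this]; ring
    rw [map_div₀, e1, ht _ hc, map_mul, h.char_act hp hφ, key, AddChar.map_add_eq_mul, sub_mul,
      one_mul, AddChar.map_sub_eq_div ψ, ← h.char_act_IA hp hσ, chMul_apply, ← hu]
    have hσu : σ u ≠ 0 := (map_ne_zero _).mpr hu0
    field_simp

/-- **change of level** -/
theorem KumIdx.map (hp : p.Prime) (hA : A.LiesOverPrime p) {B' : Type*} [CommRing B'] (π : B →+* B')
    {M' : GQ →* Matrix (Fin 2) (Fin 2) B'} (hMM' : ∀ σ, M' σ 0 1 = π (M σ 0 1)) {k' : ℕ}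
    (hk : k' ≤ k) (hpk' : ((p ^ k' : ℕ) : B') = 0) {ψ' : AddChar B' Qb} {n : ℤ}
    (h1 : KumIdx A p k M (ψ'.compAddMonoidHom π.toAddMonoidHom) n) :
    ∃ n' : ℤ, n = (p : ℤ) ^ (k - k') * n' ∧ KumIdx A p k' M' ψ' n' := by
  obtain ⟨t, ht0, htv, ht⟩ := h1
  have ht' : ∀ σ ∈ IA A, σ t = ψ' (M' σ 0 1) * t := by
    intro σ hσ
    rw [ht σ hσ, hMM']
    rfl
  have hpow : ∀ y : B', ψ' y ^ p ^ k' = 1 := by
    intro y
    rw [← AddChar.map_nsmul_eq_pow, nsmul_eq_mul, hpk', zero_mul, AddChar.map_zero_eq_one]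
  have hfix : ∀ σ ∈ IA A, σ (t ^ p ^ k') = t ^ p ^ k' := by
    intro σ hσ
    rw [map_pow, ht' σ hσ, mul_pow, hpow, one_mul]
  obtain ⟨n', hn'⟩ := Fermat.Agent.S44lib.F.val_of_IA_fixed hp hA (pow_ne_zero _ ht0) hfix
  rw [map_pow] at hn'
  refine ⟨n', ?_, t, ht0, hn', ht'⟩
  apply val_p_zpow_inj hp hA
  have e : p ^ k = p ^ k' * p ^ (k - k') := by
    rw [← pow_add, Nat.add_sub_cancel' hk]
  rw [← htv, e, pow_mul, hn', mul_comm, zpow_mul, ← zpow_natCast (_ ^ n')]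
  norm_cast

end Fermat.Agent.S59lib.R3
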