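/-
S59lib / R3 / Wild  (helper9) — Project I, risk item R3: the wild element of a finite level.

For ordinary matrix data `OrdMat A p k M` over a finite ring `B` and a primitive `p^k`-th root of unity `ζ`, Pontryagin
duality turns the Kummer index `ψ ↦ ζ ^ n(ψ)` into an element `m ∈ B`: `ψ m = ζ ^ n` whenever `KumIdx … ψ n`.
* `wild_unique`, `wild_conj : (z² − 1) m = 0` for `z = M φ 1 1`, `φ ∈ D_A`;
* `wild_map` : compatibility with change of level;
* `exists_unit_of_wild_eq_zero` : if `m = 0`, every Kummer class is the class of a unit.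
-/
import Mathlib
import Fermat.Agent.S59lib.R3.Idx

set_option autoImplicit false
set_option linter.unusedSectionVars false
set_option linter.style.haveILetI false

noncomputable section

namespace Fermat.Agent.S59lib.R3

open Fermat.Agent.S19lib

local notation "Qb" => AlgebraicClosure ℚ
local notation "GQ" => (AlgebraicClosure ℚ ≃ₐ[ℚ] AlgebraicClosure ℚ)

variable {A : ValuationSubring Qb} {p k : ℕ} {B : Type*} [CommRing B] [Finite B]
  {M : GQ →* Matrix (Fin 2) (Fin 2) B}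

/-- `m` is a wild element for the root of unity `ζ` -/
def IsWild (A : ValuationSubring Qb) (p k : ℕ) (M : GQ →* Matrix (Fin 2) (Fin 2) B) (ζ : Qb)
    (m : B) : Prop :=
  ∀ (ψ : AddChar B Qb) (n : ℤ), KumIdx A p k M ψ n → ψ m = ζ ^ n

theorem zpow_eq_of_dvd_sub {ζ : Qb} (hζ : ζ ^ p ^ k = 1) (hζ0 : ζ ≠ 0) {n n' : ℤ}
    (h : ((p : ℤ) ^ k) ∣ n - n') : ζ ^ n = ζ ^ n' := by
  obtain ⟨e, he⟩ := h
  have : n = n' + (p : ℤ) ^ k * e := by rw [← he]; ring
  rw [this, zpow_add₀ hζ0, zpow_mul]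
  have h1 : ζ ^ ((p : ℤ) ^ k) = 1 := by
    have : ((p : ℤ) ^ k) = ((p ^ k : ℕ) : ℤ) := by norm_cast
    rw [this, zpow_natCast, hζ]
  rw [h1, one_zpow, mul_one]

/-- **existence of the wild element**: Pontryagin duality -/
theorem OrdMat.exists_isWild (hp : p.Prime) (hA : A.LiesOverPrime p) (h : OrdMat A p k M) {ζ : Qb}
    (hζ : ζ ^ p ^ k = 1) : ∃ m : B, IsWild A p k M ζ m := by
  classical
  have hζ0 : ζ ≠ 0 := fun h0 => by
    rw [h0, zero_pow (pow_ne_zero _ hp.ne_zero)] at hζ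
    exact zero_ne_one hζ
  haveI := hasEnoughRootsOfUnity_Qb (K := B)
  choose idx hidx using fun ψ => h.exists_kumIdx hp hA ψ
  have hidx' : ∀ ψ n, KumIdx A p k M ψ n → ζ ^ n = ζ ^ idx ψ := fun ψ n hn =>
    zpow_eq_of_dvd_sub hζ hζ0 (hn.sub_dvd hp hA (hidx ψ))
  let Λ : (Multiplicative B →* Qbˣ) →* Qbˣ :=
    { toFun := fun f => (Units.mk0 ζ hζ0) ^ idx (homToAddChar f)
      map_one' := by
        apply Units.ext
        have e : homToAddChar (1 : Multiplicative B →* Qbˣ) = 1 := by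
          ext y
          rfl
        rw [e, Units.val_zpow_eq_zpow_val, Units.val_mk0, Units.val_one,
          ← hidx' 1 0 KumIdx.one_zero, zpow_zero]
      map_mul' := fun f g => by
        apply Units.ext
        have e : homToAddChar (f * g) = homToAddChar f * homToAddChar g := by
          ext y
          rfl
        rw [Units.val_mul, Units.val_zpow_eq_zpow_val, Units.val_zpow_eq_zpow_val,
          Units.val_zpow_eq_zpow_val, Units.val_mk0, e,
          ← hidx' _ _ ((hidx (homToAddChar f)).mul hp (hidx (homToAddChar g))),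
          zpow_add₀ hζ0] }
  refine ⟨Multiplicative.toAdd (CommGroup.monoidHomMonoidHomEquiv (Multiplicative B) Qb Λ),
    fun ψ n hn => ?_⟩
  have h1 := CommGroup.apply_monoidHomMonoidHomEquiv Qb (addCharToHom ψ) Λ
  have h2 := congrArg (fun u : Qbˣ => (u : Qb)) h1
  beta_reduce at h2
  have e : homToAddChar (addCharToHom ψ) = ψ := addCharEquivHom.left_inv ψ
  rw [hidx' ψ n hn]
  have h3 : ((Λ (addCharToHom ψ) : Qbˣ) : Qb) = ζ ^ idx ψ := by
    show (((Units.mk0 ζ hζ0) ^ idx (homToAddChar (addCharToHom ψ)) : Qbˣ) : Qb) = _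
    rw [e, Units.val_zpow_eq_zpow_val, Units.val_mk0]
  rw [← h3, ← h2]
  exact (addCharToHom_apply ψ _).symm

/-- uniqueness -/
theorem IsWild.unique (hp : p.Prime) (hA : A.LiesOverPrime p) (h : OrdMat A p k M) {ζ : Qb}
    {m m' : B} (hm : IsWild A p k M ζ m) (hm' : IsWild A p k M ζ m') : m = m' := by
  by_contra hne
  obtain ⟨ψ, hψ⟩ := exists_addChar_ne_one (sub_ne_zero.mpr hne)
  obtain ⟨n, hn⟩ := h.exists_kumIdx hp hA ψ
  apply hψ
  rw [AddChar.map_sub_eq_div, hm' ψ n hn, ← hm ψ n hn, div_self (AddChar.val_isUnit ψ m).ne_zero]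

/-- **`(z² − 1) m = 0`** for `z = M φ 1 1`, `φ` in the decomposition group -/
theorem IsWild.conj (hp : p.Prime) (hA : A.LiesOverPrime p) (h : OrdMat A p k M) {ζ : Qb}
    {m : B} (hm : IsWild A p k M ζ m) {φ : GQ} (hφ : φ ∈ DA A) : (M φ 1 1 ^ 2 - 1) * m = 0 := by
  by_contra hne
  obtain ⟨ψ, hψ⟩ := exists_addChar_ne_one hne
  obtain ⟨n, hn⟩ := h.exists_kumIdx hp hA ψ
  apply hψ
  have h1 := hm _ n (hn.conj hp h hφ)
  rw [chMul_apply] at h1
  rw [sub_mul, one_mul, AddChar.map_sub_eq_div, h1, ← hm ψ n hn,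
    div_self (AddChar.val_isUnit ψ m).ne_zero]

/-- if the wild element vanishes, every Kummer class is the class of a unit -/
theorem IsWild.exists_unit (hp : p.Prime) (hA : A.LiesOverPrime p) (h : OrdMat A p k M) {ζ : Qb}
    (hζ : IsPrimitiveRoot ζ (p ^ k)) (hm : IsWild A p k M ζ 0) (ψ : AddChar B Qb) :
    ∃ t : Qb, A.valuation t = 1 ∧ ∀ σ ∈ IA A, σ t = ψ (M σ 0 1) * t := by
  obtain ⟨n, hn⟩ := h.exists_kumIdx hp hA ψ
  have h1 := hm ψ n hn
  rw [AddChar.map_zero_eq_one] at h1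
  have h2 : ((p ^ k : ℕ) : ℤ) ∣ n := (hζ.zpow_eq_one_iff_dvd n).mp h1.symm
  exact hn.exists_unit hp (by exact_mod_cast h2)

/-- **compatibility with change of level** -/
theorem IsWild.map (hp : p.Prime) (hA : A.LiesOverPrime p) (h : OrdMat A p k M) {B' : Type*}
    [CommRing B'] [Finite B'] (π : B →+* B') {M' : GQ →* Matrix (Fin 2) (Fin 2) B'}
    (hMM' : ∀ σ, M' σ 0 1 = π (M σ 0 1)) {k' : ℕ} (hk : k' ≤ k) (hpk' : ((p ^ k' : ℕ) : B') = 0)
    {ζ : Qb} {m : B} (hm : IsWild A p k M ζ m) {m' : B'}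
    (hm' : IsWild A p k' M' (ζ ^ p ^ (k - k')) m') : π m = m' := by
  by_contra hne
  obtain ⟨ψ', hψ'⟩ := exists_addChar_ne_one (sub_ne_zero.mpr hne)
  obtain ⟨n, hn⟩ := h.exists_kumIdx hp hA (ψ'.compAddMonoidHom π.toAddMonoidHom)
  obtain ⟨n', rfl, hn'⟩ := hn.map hp hA π hMM' hk hpk'
  apply hψ'
  have h1 : ψ' (π m) = ζ ^ ((p : ℤ) ^ (k - k') * n') := hm _ _ hn
  have h2 := hm' ψ' n' hn'
  rw [AddChar.map_sub_eq_div, h1, h2, zpow_mul, ← zpow_natCast ζ]
  have e : ((p ^ (k - k') : ℕ) : ℤ) = (p : ℤ) ^ (k - k') := by norm_cast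
  rw [e, div_self]
  rw [← e, zpow_natCast, ← h2]
  exact (AddChar.val_isUnit ψ' m').ne_zero

/-! ### a compatible system of `p`-power roots of unity -/

section zsys

open scoped Classical

/-- a compatible system of `p`-power roots of unity: `zsys p (k+1) ^ p = zsys p k` -/
def zsys (p : ℕ) : ℕ → Qb
  | 0 => 1
  | (k + 1) => if k = 0 then
      (if h : ∃ z : Qb, IsPrimitiveRoot z p then h.choose else 1)
    else
      (if h : ∃ z : Qb, z ^ p = zsys p k then h.choose else 1)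

theorem zsys_succ_pow (hp : p.Prime) (k : ℕ) : zsys p (k + 1) ^ p = zsys p k := by
  haveI : NeZero ((p : ℕ) : Qb) := ⟨by exact_mod_cast hp.ne_zero⟩
  rcases Nat.eq_zero_or_pos k with rfl | hk
  · have h : ∃ z : Qb, IsPrimitiveRoot z p := HasEnoughRootsOfUnity.exists_primitiveRoot Qb p
    show (if (0 : ℕ) = 0 then (if h : ∃ z : Qb, IsPrimitiveRoot z p then h.choose else 1) else _) ^ p
      = 1
    rw [if_pos rfl, dif_pos h]
    exact h.choose_spec.pow_eq_one
  · have h : ∃ z : Qb, z ^ p = zsys p k := IsAlgClosed.exists_pow_nat_eq _ hp.pos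
    show (if k = 0 then _ else (if h : ∃ z : Qb, z ^ p = zsys p k then h.choose else 1)) ^ p
      = zsys p k
    rw [if_neg hk.ne', dif_pos h]
    exact h.choose_spec

theorem zsys_one_prim (hp : p.Prime) : IsPrimitiveRoot (zsys p 1) p := by
  haveI : NeZero ((p : ℕ) : Qb) := ⟨by exact_mod_cast hp.ne_zero⟩
  have h : ∃ z : Qb, IsPrimitiveRoot z p := HasEnoughRootsOfUnity.exists_primitiveRoot Qb p
  show IsPrimitiveRoot (if (0 : ℕ) = 0 then (if h : ∃ z : Qb, IsPrimitiveRoot z p then h.choose else 1)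
    else _) p
  rw [if_pos rfl, dif_pos h]
  exact h.choose_spec

theorem zsys_pow_pow (hp : p.Prime) (k j : ℕ) : zsys p (k + j) ^ p ^ j = zsys p k := by
  induction j with
  | zero => rw [pow_zero, pow_one, add_zero]
  | succ j ih => rw [← add_assoc, pow_succ', pow_mul, zsys_succ_pow hp, ih]

theorem zsys_pow_sub (hp : p.Prime) {k k' : ℕ} (hk : k' ≤ k) :
    zsys p k ^ p ^ (k - k') = zsys p k' := by
  have := zsys_pow_pow hp k' (k - k')
  rwa [Nat.add_sub_cancel' hk] at this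

theorem zsys_prim (hp : p.Prime) (k : ℕ) : IsPrimitiveRoot (zsys p k) (p ^ k) := by
  rcases Nat.eq_zero_or_pos k with rfl | hk
  · rw [pow_zero]
    exact IsPrimitiveRoot.one
  · obtain ⟨j, rfl⟩ : ∃ j, k = j + 1 := ⟨k - 1, by omega⟩
    have h1 : zsys p (j + 1) ^ p ^ (j + 1) = 1 := by
      have := zsys_pow_pow hp 0 (j + 1)
      rwa [zero_add] at this
    have h2 : zsys p (j + 1) ^ p ^ j ≠ 1 := by
      have := zsys_pow_pow hp 1 j
      rw [add_comm] at this
      rw [this]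
      exact (zsys_one_prim hp).ne_one hp.one_lt
    haveI : Fact p.Prime := ⟨hp⟩
    rw [← orderOf_eq_prime_pow h2 h1]
    exact IsPrimitiveRoot.orderOf _

end zsys

end Fermat.Agent.S59lib.R3
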