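/-
S59lib / R3 / Level  (helper9) — Project I, risk item R3: a finite level with vanishing wild element is flat.

`B` finite, `M : G_ℚ → M₂(B)` with `OrdMat A p k M`, acting on `J = B²` by `σ • v = M σ *ᵥ v`, `K = {v | v 1 = 0}`.
If the wild element vanishes (`IsWild A p k M ζ 0`, `ζ` a primitive `p^k`-th root of unity) then `KumData A K` holds
and `B²` has a finite flat model over `ℤ_(p)` (`hasFlatModel_of_wild_zero`).
-/
import Mathlib
import Fermat.Agent.S59lib.R3.Wild
import Fermat.Agent.S59lib.R3.Flat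

set_option autoImplicit false
set_option linter.unusedSectionVars false
set_option linter.style.haveILetI false

noncomputable section

namespace Fermat.Agent.S59lib.R3

open Fermat.Agent.S19lib

open scoped Matrix

local notation "Qb" => AlgebraicClosure ℚ
local notation "GQ" => (AlgebraicClosure ℚ ≃ₐ[ℚ] AlgebraicClosure ℚ)

variable {A : ValuationSubring Qb} {p k : ℕ} {B : Type} [CommRing B]

/-- the action of `G_ℚ` on `B²` through a matrix representation -/
@[reducible] def matAct (M : GQ →* Matrix (Fin 2) (Fin 2) B) : DistribMulAction GQ (Fin 2 → B) where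
  smul σ v := M σ *ᵥ v
  one_smul v := by
    show M 1 *ᵥ v = v
    rw [map_one, Matrix.one_mulVec]
  mul_smul σ τ v := by
    show M (σ * τ) *ᵥ v = M σ *ᵥ (M τ *ᵥ v)
    rw [map_mul, Matrix.mulVec_mulVec]
  smul_zero σ := Matrix.mulVec_zero _
  smul_add σ v w := Matrix.mulVec_add _ v w

/-- the line `{v | v 1 = 0}` -/
def lineK (B : Type) [CommRing B] : AddSubgroup (Fin 2 → B) where
  carrier := {v | v 1 = 0}
  zero_mem' := rfl
  add_mem' := fun {a b} ha hb => by
    show a 1 + b 1 = 0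
    rw [ha, hb, add_zero]
  neg_mem' := fun {a} ha => by
    show -(a 1) = 0
    rw [ha, neg_zero]

theorem mem_lineK {v : Fin 2 → B} : v ∈ lineK B ↔ v 1 = 0 := Iff.rfl

/-- roots of unity are units -/
theorem val_addChar' {G : Type*} [AddCommGroup G] [Finite G] (χ : AddChar G Qb) (y : G) :
    A.valuation (χ y) = 1 := by
  have h1 : χ y ^ Nat.card G = 1 := by
    rw [← AddChar.map_nsmul_eq_pow, card_nsmul_eq_zero', AddChar.map_zero_eq_one]
  have h2 : A.valuation (χ y) ^ Nat.card G = 1 ^ Nat.card G := by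
    rw [← map_pow, h1, map_one, one_pow]
  exact (pow_left_inj₀ zero_le zero_le Nat.card_pos.ne').mp h2

theorem mulVec_zero_entry (N : Matrix (Fin 2) (Fin 2) B) (v : Fin 2 → B) :
    (N *ᵥ v) 0 = N 0 0 * v 0 + N 0 1 * v 1 := by
  rw [Matrix.mulVec, dotProduct, Fin.sum_univ_two]

theorem mulVec_one_entry (N : Matrix (Fin 2) (Fin 2) B) (v : Fin 2 → B) :
    (N *ᵥ v) 1 = N 1 0 * v 0 + N 1 1 * v 1 := by
  rw [Matrix.mulVec, dotProduct, Fin.sum_univ_two]

variable [Finite B] {M : GQ →* Matrix (Fin 2) (Fin 2) B}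

/-- the embedding `B → K`, `r ↦ (r, 0)` -/
def toLineK (B : Type) [CommRing B] : B →+ lineK B where
  toFun r := ⟨![r, 0], rfl⟩
  map_zero' := Subtype.ext (by
    funext i
    fin_cases i <;> rfl)
  map_add' a b := Subtype.ext (by
    funext i
    fin_cases i
    · rfl
    · show (0 : B) = 0 + 0
      rw [add_zero])

theorem toLineK_coe (y : lineK B) : toLineK B ((y : Fin 2 → B) 0) = y := by
  apply Subtype.ext
  funext i
  fin_cases i
  · rfl
  · exact (y.2).symm

/-- **Kummer data from a vanishing wild element** -/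
theorem kumData_of_wild_zero (hp : p.Prime) (hA : A.LiesOverPrime p) (h : OrdMat A p k M) {ζ : Qb}
    (hζ : IsPrimitiveRoot ζ (p ^ k)) (hm : IsWild A p k M ζ 0) :
    letI := matAct M
    KumData A (lineK B) := by
  letI := matAct M
  have hsmul : ∀ (σ : GQ) (v : Fin 2 → B), σ • v = M σ *ᵥ v := fun _ _ => rfl
  have hsub : ∀ σ ∈ IA A, ∀ x : Fin 2 → B, σ • x - x ∈ lineK B := by
    intro σ hσ x
    rw [mem_lineK, Pi.sub_apply, hsmul, mulVec_one_entry, h.tri σ (F.IA_le_DA A hσ), h.one σ hσ]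
    ring
  refine ⟨hsub, ?_, ?_⟩
  · intro σ hσ y hy χ
    set ψ : AddChar B Qb := χ.compAddMonoidHom (toLineK B) with hψ
    have e1 : χ y = ψ ((y : Fin 2 → B) 0) := by
      rw [hψ, AddChar.compAddMonoidHom_apply, toLineK_coe]
    have e2 : (⟨σ • (y : Fin 2 → B), hy⟩ : lineK B) = toLineK B (M σ 0 0 * (y : Fin 2 → B) 0) := by
      apply Subtype.ext
      funext i
      fin_cases i
      · show (M σ *ᵥ (y : Fin 2 → B)) 0 = M σ 0 0 * (y : Fin 2 → B) 0
        rw [mulVec_zero_entry, (mem_lineK.mp y.2), mul_zero, add_zero]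
      · exact hy
    rw [e1, e2, h.char_act_IA hp hσ]
    rfl
  · intro x χ
    set ψ : AddChar B Qb := χ.compAddMonoidHom (toLineK B) with hψ
    obtain ⟨t, ht1, ht⟩ := hm.exists_unit hp hA h hζ (chMul ψ (x 1))
    refine ⟨ψ (x 0) * t, by rw [map_mul, val_addChar', ht1, one_mul], fun σ hσ => ?_⟩
    have e2 : (⟨σ • x - x, hsub σ hσ x⟩ : lineK B) =
        toLineK B ((M σ 0 0 * x 0 - x 0) + x 1 * M σ 0 1) := by
      apply Subtype.ext
      funext i
      fin_cases i
      · show (M σ *ᵥ x) 0 - x 0 = (M σ 0 0 * x 0 - x 0) + x 1 * M σ 0 1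
        rw [mulVec_zero_entry]
        ring
      · exact hsub σ hσ x
    have e3 : χ (⟨σ • x - x, hsub σ hσ x⟩ : lineK B) =
        ψ ((M σ 0 0 * x 0 - x 0) + x 1 * M σ 0 1) := by
      rw [e2]
      rfl
    rw [e3, map_mul, ht σ hσ, h.char_act_IA hp hσ, AddChar.map_add_eq_mul, AddChar.map_sub_eq_div,
      chMul_apply]
    have : ψ (x 0) ≠ 0 := (AddChar.val_isUnit ψ _).ne_zero
    field_simp

/-- **a finite level with vanishing wild element has a finite flat model** -/
theorem hasFlatModel_of_wild_zero [Fact p.Prime] (hA : A.LiesOverPrime p) (h : OrdMat A p k M)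
    {ζ : Qb} (hζ : IsPrimitiveRoot ζ (p ^ k)) (hm : IsWild A p k M ζ 0) :
    Fermat.Agent.S32lib.HasFlatModel p (Fin 2 → B) (fun σ v => M σ *ᵥ v) := by
  letI := matAct M
  have hp : p.Prime := Fact.out
  have hJ : IsFiniteGaloisSubmodule (⊤ : AddSubgroup (Fin 2 → B)) := by
    obtain ⟨E, hE, hcont⟩ := h.cont
    refine isFiniteGaloisSubmodule_top ⟨E, hE, fun σ hσ x => ?_⟩
    have : M σ = M 1 := hcont σ 1 (fun e he => by rw [hσ e he]; rfl)
    show M σ *ᵥ x = x
    rw [this, map_one, Matrix.one_mulVec]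
  exact hasFlatModel_of_kumData hA hJ (kumData_of_wild_zero hp hA h hζ hm)

end Fermat.Agent.S59lib.R3
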