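/-
S59lib / R3 / Main  (helper9) — Project I, risk item R3 (= PS1 + PS2 of PSTEP): the wild element of an ordinary
deformation.

`R` complete noetherian local with finite residue field, `ρ : GaloisRepAdic R` with cyclotomic determinant, ordinary at
the place `A ∣ p` in the basis `b` (`OrdBasis`).  There is `m ∈ R` (**the wild element**) with
* `(z² − 1) m = 0` whenever `φ ∈ D_A` acts on `V / R b₀` by the scalar `z`;
* every finite level `V / I V` with `m ∈ I` has a finite flat model over `ℤ_(p)` (`FlatLevel p ρ I`).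
-/
import Mathlib
import Fermat.Agent.S59lib.R3.Level
import Fermat.Agent.S59lib.Flat.Main
import Fermat.Agent.TeamA.MatRep

set_option autoImplicit false
set_option linter.unusedSectionVars false
set_option linter.style.haveILetI false

noncomputable section

namespace Fermat.Agent.S59lib.R3

open Fermat.Agent.S19lib IsLocalRing Fermat.Agent.TeamA.Rep

open scoped Matrix

local notation "Qb" => AlgebraicClosure ℚ
local notation "GQ" => (AlgebraicClosure ℚ ≃ₐ[ℚ] AlgebraicClosure ℚ)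

variable {A : ValuationSubring Qb} {p : ℕ} {R : Type} [CommRing R] [IsLocalRing R]
  {ρ : GaloisRepAdic R} {b : Module.Basis (Fin 2) R ρ.V}

/-- **an ordinary basis** at the place `A`: `b 0` spans a `D_A`-stable line on whose quotient inertia acts trivially,
and the determinant is cyclotomic. -/
structure OrdBasis (A : ValuationSubring Qb) (p : ℕ) (ρ : GaloisRepAdic R)
    (b : Module.Basis (Fin 2) R ρ.V) : Prop where
  det : ρ.DetIsCyclotomic p
  stab : ∀ σ ∈ DA A, ρ.ρ σ (b 0) ∈ Submodule.span R {b 0}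
  triv : ∀ σ ∈ IA A, ∀ v : ρ.V, ρ.ρ σ v - v ∈ Submodule.span R {b 0}

theorem repr_one_of_mem_span {v : ρ.V} (hv : v ∈ Submodule.span R {b 0}) : b.repr v 1 = 0 := by
  obtain ⟨c, rfl⟩ := Submodule.mem_span_singleton.mp hv
  rw [map_smul, Module.Basis.repr_self, Finsupp.smul_apply, Finsupp.single_apply,
    if_neg (by decide), smul_zero]

theorem OrdBasis.matOf_10 (h : OrdBasis A p ρ b) {σ : GQ} (hσ : σ ∈ DA A) : matOf ρ b σ 1 0 = 0 := by
  unfold matOf
  rw [LinearMap.toMatrix_apply]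
  exact repr_one_of_mem_span (h.stab σ hσ)

/-- the scalar by which `φ` acts on the quotient is the lower right entry -/
theorem matOf_11_of {φ : GQ} {z : R} (hz : ρ.ρ φ (b 1) - z • b 1 ∈ Submodule.span R {b 0}) :
    matOf ρ b φ 1 1 = z := by
  unfold matOf
  rw [LinearMap.toMatrix_apply]
  have h1 := repr_one_of_mem_span hz
  rw [map_sub, Finsupp.sub_apply, map_smul, Module.Basis.repr_self, Finsupp.smul_apply,
    Finsupp.single_apply, if_pos rfl, smul_eq_mul, mul_one, sub_eq_zero] at h1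
  exact h1

theorem OrdBasis.matOf_11 (h : OrdBasis A p ρ b) {σ : GQ} (hσ : σ ∈ IA A) : matOf ρ b σ 1 1 = 1 :=
  matOf_11_of (by rw [one_smul]; exact h.triv σ hσ (b 1))

variable (ρ b)

/-- the matrix representation at the level `I` -/
def levelMat (I : Ideal R) : GQ →* Matrix (Fin 2) (Fin 2) (R ⧸ I) :=
  (RingHom.mapMatrix (m := Fin 2) (Ideal.Quotient.mk I)).toMonoidHom.comp (matOfHom ρ b)

theorem levelMat_apply (I : Ideal R) (σ : GQ) (i j : Fin 2) :
    levelMat ρ b I σ i j = Ideal.Quotient.mk I (matOf ρ b σ i j) := rfl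

variable {ρ b}

/-- the levels are ordinary matrix data -/
theorem OrdBasis.ordMat (h : OrdBasis A p ρ b) {I : Ideal R} {n k : ℕ} (hn : maximalIdeal R ^ n ≤ I)
    (hk : ((p ^ k : ℕ) : R) ∈ I) : OrdMat A p k (levelMat ρ b I) := by
  refine ⟨?_, ?_, ?_, ?_, ?_⟩
  · rw [← map_natCast (Ideal.Quotient.mk I)]
    exact Ideal.Quotient.eq_zero_iff_mem.mpr hk
  · intro σ hσ
    rw [levelMat_apply, h.matOf_10 hσ, map_zero]
  · intro σ hσ
    rw [levelMat_apply, h.matOf_11 hσ, map_one]
  · intro σ hσ a ha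
    have h1 := h.det.2 k σ a ha
    have h2 : LinearMap.det (ρ.ρ σ) = matOf ρ b σ 0 0 * matOf ρ b σ 1 1 := by
      rw [← LinearMap.det_toMatrix b, Matrix.det_fin_two]
      show matOf ρ b σ 0 0 * matOf ρ b σ 1 1 - matOf ρ b σ 0 1 * matOf ρ b σ 1 0 = _
      rw [h.matOf_10 hσ, mul_zero, sub_zero]
    rw [h2] at h1
    have h3 : matOf ρ b σ 0 0 * matOf ρ b σ 1 1 - (a : R) ∈ I :=
      (Ideal.span_singleton_le_iff_mem I).mpr hk h1
    rw [levelMat_apply, levelMat_apply, ← map_mul, ← map_natCast (Ideal.Quotient.mk I)]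
    exact Ideal.Quotient.eq.mpr h3
  · obtain ⟨L, hL, hLc⟩ := matCont_matOf ρ b n
    have hone : ∀ σ : GQ, (∀ x ∈ L, σ x = x) → levelMat ρ b I σ = 1 := by
      intro σ hσ
      ext i j
      rw [levelMat_apply]
      have h1 := hn (hLc σ hσ i j)
      rw [Matrix.sub_apply] at h1
      rw [Ideal.Quotient.eq.mpr h1, Matrix.one_apply, Matrix.one_apply]
      split_ifs
      · exact map_one _
      · exact map_zero _
    refine ⟨L, hL, fun σ τ hστ => ?_⟩
    have h1 := hone (τ⁻¹ * σ) (fun x hx => by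
      rw [AlgEquiv.mul_apply, hστ x hx, ← AlgEquiv.mul_apply, inv_mul_cancel, AlgEquiv.one_apply])
    rw [map_mul] at h1
    have h2 : levelMat ρ b I τ * (levelMat ρ b I τ⁻¹ * levelMat ρ b I σ) = levelMat ρ b I τ := by
      rw [h1, mul_one]
    rw [← mul_assoc, ← map_mul, mul_inv_cancel, map_one, one_mul] at h2
    exact h2

theorem levelMat_factor {I I' : Ideal R} (hII' : I ≤ I') (σ : GQ) (i j : Fin 2) :
    levelMat ρ b I' σ i j = Ideal.Quotient.factor hII' (levelMat ρ b I σ i j) := by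
  rw [levelMat_apply, levelMat_apply, Ideal.Quotient.factor_mk]

theorem natCast_pow_mem (h : OrdBasis A p ρ b) (n : ℕ) : ((p ^ n : ℕ) : R) ∈ maximalIdeal R ^ n := by
  rw [Nat.cast_pow]
  exact Ideal.pow_mem_pow h.det.1 n

/-- an ordinary basis from the Prelude's `IsOrdinaryAt` -/
theorem exists_ordBasis (hdet : ρ.DetIsCyclotomic p) (hord : ρ.IsOrdinaryAt p)
    (hA : A.LiesOverPrime p) : ∃ b : Module.Basis (Fin 2) R ρ.V, OrdBasis A p ρ b := by
  obtain ⟨L, ⟨b, rfl⟩, h1, h2⟩ := hord A hA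
  exact ⟨b, hdet, fun σ hσ => h1 σ hσ _ (Submodule.mem_span_singleton_self _), h2⟩

section main

variable [IsNoetherianRing R] [IsAdicComplete (maximalIdeal R) R] [Finite (ResidueField R)]

/-- **the wild element** of an ordinary deformation -/
theorem OrdBasis.exists_wild [Fact p.Prime] (hA : A.LiesOverPrime p) (h : OrdBasis A p ρ b) :
    ∃ m : R, ∀ (I : Ideal R) (n : ℕ), maximalIdeal R ^ n ≤ I → Finite (R ⧸ I) →
      IsWild A p n (levelMat ρ b I) (zsys p n) (Ideal.Quotient.mk I m) := by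
  have hp : p.Prime := Fact.out
  have hfin : ∀ n, Finite (R ⧸ maximalIdeal R ^ n) := fun n =>
    IsLocalRing.finite_quotient_iff.mpr ⟨n, le_rfl⟩
  have hord : ∀ n, OrdMat A p n (levelMat ρ b (maximalIdeal R ^ n)) := fun n =>
    h.ordMat le_rfl (natCast_pow_mem h n)
  have hex : ∀ n, ∃ w : R ⧸ maximalIdeal R ^ n,
      IsWild A p n (levelMat ρ b (maximalIdeal R ^ n)) (zsys p n) w := fun n =>
    haveI := hfin n
    (hord n).exists_isWild hp hA (zsys_prim hp n).pow_eq_one
  choose w hw using hex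
  -- compatibility of the levels
  have hmap : ∀ {I : Ideal R} {n n' : ℕ} (hn : maximalIdeal R ^ n ≤ I) (hnn' : n ≤ n')
      (hI : Finite (R ⧸ I)) (w' : R ⧸ I), IsWild A p n (levelMat ρ b I) (zsys p n) w' →
      Ideal.Quotient.factor ((Ideal.pow_le_pow_right hnn').trans hn) (w n') = w' := by
    intro I n n' hn hnn' hI w' hw'
    haveI := hfin n'
    refine (hw n').map hp hA (hord n') (Ideal.Quotient.factor ((Ideal.pow_le_pow_right hnn').trans hn))
      (fun σ => levelMat_factor _ σ 0 1) hnn' ?_ ?_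
    · rw [← map_natCast (Ideal.Quotient.mk I)]
      exact Ideal.Quotient.eq_zero_iff_mem.mpr (hn (natCast_pow_mem h n))
    · rw [zsys_pow_sub hp hnn']
      exact hw'
  -- lifts and the limit
  choose r hr using fun n => Ideal.Quotient.mk_surjective (w n)
  have hcauchy : ∀ {m n : ℕ}, m ≤ n →
      r m ≡ r n [SMOD (maximalIdeal R ^ m • ⊤ : Submodule R R)] := by
    intro m n hmn
    rw [SModEq.sub_mem, smul_eq_mul, Ideal.mul_top]
    have h1 := hmap (le_refl (maximalIdeal R ^ m)) hmn (hfin m) (w m) (hw m)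
    rw [← hr n, Ideal.Quotient.factor_mk, ← hr m] at h1
    rw [← Ideal.neg_mem_iff, neg_sub]
    exact Ideal.Quotient.eq.mp h1
  obtain ⟨m, hm⟩ := IsPrecomplete.prec (inferInstance : IsPrecomplete (maximalIdeal R) R) hcauchy
  have hmk : ∀ n, Ideal.Quotient.mk (maximalIdeal R ^ n) m = w n := by
    intro n
    have h1 := hm n
    rw [SModEq.sub_mem, smul_eq_mul, Ideal.mul_top] at h1
    rw [← hr n]
    exact (Ideal.Quotient.eq.mpr h1).symm
  refine ⟨m, fun I n hn hI => ?_⟩
  haveI := hI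
  have hordI : OrdMat A p n (levelMat ρ b I) := h.ordMat hn (hn (natCast_pow_mem h n))
  obtain ⟨w', hw'⟩ := hordI.exists_isWild hp hA (zsys_prim hp n).pow_eq_one
  have h1 := hmap hn le_rfl hI w' hw'
  rw [← hmk n, Ideal.Quotient.factor_mk] at h1
  rw [h1]
  exact hw'

/-- **PS1 + PS2-a + the relation `(z² − 1) m = 0`.** -/
theorem OrdBasis.exists_wildElt [Fact p.Prime] (hA : A.LiesOverPrime p) (h : OrdBasis A p ρ b) :
    ∃ m : R, (∀ φ ∈ DA A, ∀ z : R, ρ.ρ φ (b 1) - z • b 1 ∈ Submodule.span R {b 0} →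
        (z ^ 2 - 1) * m = 0) ∧
      ∀ I : Ideal R, m ∈ I → Finite (R ⧸ I) → Fermat.Agent.S32lib.FlatLevel p ρ I := by
  have hp : p.Prime := Fact.out
  obtain ⟨m, hm⟩ := h.exists_wild hA
  refine ⟨m, fun φ hφ z hz => ?_, fun I hmI hI => ?_⟩
  · -- Hausdorff
    refine IsHausdorff.haus (inferInstance : IsHausdorff (maximalIdeal R) R) _ fun n => ?_
    rw [SModEq.sub_mem, sub_zero, smul_eq_mul, Ideal.mul_top]
    have hfin : Finite (R ⧸ maximalIdeal R ^ n) := IsLocalRing.finite_quotient_iff.mpr ⟨n, le_rfl⟩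
    have hord : OrdMat A p n (levelMat ρ b (maximalIdeal R ^ n)) :=
      h.ordMat le_rfl (natCast_pow_mem h n)
    have h1 := (hm _ n le_rfl hfin).conj hp hA hord hφ
    rw [levelMat_apply, matOf_11_of hz, ← map_pow, ← map_one (Ideal.Quotient.mk _), ← map_sub,
      ← map_mul] at h1
    exact Ideal.Quotient.eq_zero_iff_mem.mp h1
  · haveI := hI
    obtain ⟨n, hn⟩ := Fermat.Agent.S59lib.Flat.exists_maximalIdeal_pow_le I
    have hord : OrdMat A p n (levelMat ρ b I) := h.ordMat hn (hn (natCast_pow_mem h n))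
    have hw := hm I n hn hI
    rw [Ideal.Quotient.eq_zero_iff_mem.mpr hmI] at hw
    have hq := hasFlatModel_of_wild_zero hA hord (zsys_prim hp n) hw
    refine Fermat.Agent.S59lib.Flat.flatLevel_of_coords ρ b (fun σ => matOf ρ b σ) (fun σ v => ?_) I hq
    unfold matOf
    exact (LinearMap.toMatrix_mulVec_repr b b (ρ.ρ σ) v).symm

end main

end Fermat.Agent.S59lib.R3
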