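/-
S59lib / R3 / Strict  (helper9) — Project I, STRICT-T items (1) and (6).

* `isStrictOrdinaryAt_of_sq`: an ordinary representation with cyclotomic determinant is **strictly** ordinary at `p`
  as soon as the unramified quotient character `z = (matOf ρ b ·) 1 1` of `D_P` has square one.
* `OrdBasis.sq_eq_one_of_frobenius`: `z ^ 2 = 1` on all of `D_P` follows from `z φ ^ 2 = 1` for one Frobenius element
  `φ` at `P` (continuity + `D_P` is topologically generated by `I_P` and a Frobenius).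
-/
import Mathlib
import Fermat.Agent.S59lib.R3.Main
import Fermat.Agent.S56lib.Loc.Frob
import Fermat.Prelude.Def_GaloisRep_StrictOrdinary

set_option autoImplicit false
set_option linter.unusedSectionVars false
set_option linter.style.haveILetI false

noncomputable section

namespace Fermat.Agent.S59lib.R3

open Fermat.Agent.S19lib IsLocalRing Fermat.Agent.TeamA.Rep

open scoped Matrix

local notation "Qb" => AlgebraicClosure ℚ
local notation "GQ" => (AlgebraicClosure ℚ ≃ₐ[ℚ] AlgebraicClosure ℚ)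

variable {A : ValuationSubring Qb} {p : ℕ} {R : Type} [CommRing R] [IsLocalRing R]
  {ρ : GaloisRepAdic R} {b : Module.Basis (Fin 2) R ρ.V}

/-! ### The action in an ordinary basis -/

theorem apply_basis_eq (ρ : GaloisRepAdic R) (b : Module.Basis (Fin 2) R ρ.V) (σ : GQ) (j : Fin 2) :
    ρ.ρ σ (b j) = matOf ρ b σ 0 j • b 0 + matOf ρ b σ 1 j • b 1 := by
  conv_lhs => rw [← b.sum_repr (ρ.ρ σ (b j))]
  rw [Fin.sum_univ_two]
  unfold matOf
  rw [LinearMap.toMatrix_apply, LinearMap.toMatrix_apply]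

theorem OrdBasis.apply_b0 (h : OrdBasis A p ρ b) {σ : GQ} (hσ : σ ∈ DA A) :
    ρ.ρ σ (b 0) = matOf ρ b σ 0 0 • b 0 := by
  rw [apply_basis_eq, h.matOf_10 hσ, zero_smul, add_zero]

theorem OrdBasis.det_eq (h : OrdBasis A p ρ b) {σ : GQ} (hσ : σ ∈ DA A) :
    LinearMap.det (ρ.ρ σ) = matOf ρ b σ 0 0 * matOf ρ b σ 1 1 := by
  rw [← LinearMap.det_toMatrix b, Matrix.det_fin_two]
  show matOf ρ b σ 0 0 * matOf ρ b σ 1 1 - matOf ρ b σ 0 1 * matOf ρ b σ 1 0 = _
  rw [h.matOf_10 hσ, mul_zero, sub_zero]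

/-- the quotient character is multiplicative on the decomposition group -/
theorem OrdBasis.matOf_11_mul (h : OrdBasis A p ρ b) {σ τ : GQ} (hσ : σ ∈ DA A) :
    matOf ρ b (σ * τ) 1 1 = matOf ρ b σ 1 1 * matOf ρ b τ 1 1 := by
  rw [matOf_mul, Matrix.mul_apply, Fin.sum_univ_two, h.matOf_10 hσ, zero_mul, zero_add]

theorem OrdBasis.matOf_11_pow (h : OrdBasis A p ρ b) {σ : GQ} (hσ : σ ∈ DA A) (k : ℕ) :
    matOf ρ b (σ ^ k) 1 1 = matOf ρ b σ 1 1 ^ k := by
  induction k with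
  | zero => rw [pow_zero, pow_zero, matOf_one, Matrix.one_apply_eq]
  | succ k ih => rw [pow_succ', pow_succ', h.matOf_11_mul hσ, ih]

/-! ### Item (1): strictness from `z ^ 2 = 1` -/

/-- **strict ordinarity from `z² = 1`** at one place -/
theorem OrdBasis.strict_of_sq (h : OrdBasis A p ρ b)
    (hz : ∀ σ ∈ DA A, matOf ρ b σ 1 1 ^ 2 = 1) :
    ∃ L : Submodule R ρ.V,
      (∃ b' : Module.Basis (Fin 2) R ρ.V, L = Submodule.span R {b' 0}) ∧
      (∀ σ ∈ A.decompositionSubgroup ℚ, ∀ v ∈ L, ρ.ρ σ v ∈ L) ∧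
      (∀ σ ∈ A.inertiaSubgroupIn ℚ, ∀ v : ρ.V, ρ.ρ σ v - v ∈ L) ∧
      (∀ σ ∈ A.decompositionSubgroup ℚ, ∃ x z : R,
        (∀ w ∈ L, ρ.ρ σ w = x • w) ∧ (∀ v : ρ.V, ρ.ρ σ v - z • v ∈ L) ∧
        ∀ (n a : ℕ), (∀ μ : AlgebraicClosure ℚ, μ ^ p ^ n = 1 → σ μ = μ ^ a) →
          x - (a : R) * z ∈ Ideal.span {((p ^ n : ℕ) : R)}) := by
  refine ⟨Submodule.span R {b 0}, ⟨b, rfl⟩, ?_, h.triv, ?_⟩
  · intro σ hσ v hv
    obtain ⟨c, rfl⟩ := Submodule.mem_span_singleton.mp hv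
    rw [map_smul]
    exact Submodule.smul_mem _ _ (h.stab σ hσ)
  · intro σ hσ
    refine ⟨matOf ρ b σ 0 0, matOf ρ b σ 1 1, ?_, ?_, ?_⟩
    · intro w hw
      obtain ⟨c, rfl⟩ := Submodule.mem_span_singleton.mp hw
      rw [map_smul, h.apply_b0 hσ, smul_comm]
    · intro v
      have hv : v = b.repr v 0 • b 0 + b.repr v 1 • b 1 := by
        conv_lhs => rw [← b.sum_repr v]
        rw [Fin.sum_univ_two]
      have h1 : ρ.ρ σ v - matOf ρ b σ 1 1 • v
          = (b.repr v 0 * (matOf ρ b σ 0 0 - matOf ρ b σ 1 1) + b.repr v 1 * matOf ρ b σ 0 1) • b 0 := by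
        conv_lhs => rw [hv]
        rw [map_add, map_smul, map_smul, h.apply_b0 hσ, apply_basis_eq ρ b σ 1]
        module
      rw [h1]
      exact Submodule.smul_mem _ _ (Submodule.mem_span_singleton_self _)
    · intro n a ha
      have h1 := h.det.2 n σ a ha
      rw [h.det_eq hσ] at h1
      have h2 : matOf ρ b σ 0 0 - (a : R) * matOf ρ b σ 1 1
          = (matOf ρ b σ 0 0 * matOf ρ b σ 1 1 - (a : R)) * matOf ρ b σ 1 1 := by
        have := hz σ hσ
        linear_combination (- matOf ρ b σ 0 0) * this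
      rw [h2]
      exact Ideal.mul_mem_right _ _ h1

/-- **STRICT-T item (1)**: an ordinary representation with cyclotomic determinant whose quotient characters have
square one is strictly ordinary. -/
theorem isStrictOrdinaryAt_of_sq (hdet : ρ.DetIsCyclotomic p)
    (h : ∀ P : ValuationSubring Qb, P.LiesOverPrime p →
      ∃ b : Module.Basis (Fin 2) R ρ.V, OrdBasis P p ρ b ∧ ∀ σ ∈ DA P, matOf ρ b σ 1 1 ^ 2 = 1) :
    ρ.IsStrictOrdinaryAt p := by
  refine ⟨hdet.1, fun P hP => ?_⟩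
  obtain ⟨b, hb, hz⟩ := h P hP
  exact hb.strict_of_sq hz

/-- item (1), with the ordinary bases quantified universally -/
theorem isStrictOrdinaryAt_of_sq' (hdet : ρ.DetIsCyclotomic p) (hord : ρ.IsOrdinaryAt p)
    (hz : ∀ P : ValuationSubring Qb, P.LiesOverPrime p → ∀ b : Module.Basis (Fin 2) R ρ.V,
      OrdBasis P p ρ b → ∀ σ ∈ DA P, matOf ρ b σ 1 1 ^ 2 = 1) :
    ρ.IsStrictOrdinaryAt p := by
  refine isStrictOrdinaryAt_of_sq hdet fun P hP => ?_
  obtain ⟨b, hb⟩ := exists_ordBasis (A := P) hdet hord hP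
  exact ⟨b, hb, hz P hP b hb⟩

/-! ### Item (6): from one Frobenius element to the whole decomposition group -/

section frob

open Fermat.Agent.Helper5 Fermat.Agent.S56lib.TWSel Fermat.Agent.S56lib.Loc
open scoped Pointwise

/-- a Frobenius on `ℤ̄` modulo the prime of the place is a Frobenius element at the place -/
theorem isFrobeniusAt_of_primeOf (hp : p.Prime) (hA : A.LiesOverPrime p) {φ : GQ}
    (hφQ : φ • primeOf A = primeOf A) (hφ : ∀ c : Zbar, φ • c - c ^ p ∈ primeOf A) :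
    A.IsFrobeniusAt φ p := by
  haveI : Fact p.Prime := ⟨hp⟩
  haveI := isMaximal_primeOf hp hA
  haveI := liesOver_primeOf hp hA
  have hV : Vloc (primeOf A) p = A := by
    ext x
    rw [mem_Vloc_iff, mem_iff_exists_primeOf hp hA]
  have h1 := isFrobeniusAt_Vloc (primeOf A) p hφQ hφ
  rwa [hV] at h1

set_option synthInstance.maxHeartbeats 200000 in
/-- modulo a finite normal level, the decomposition group is generated by the inertia group and a **Frobenius
element** (`S56lib.Loc.exists_frob_generates`, keeping the Frobenius property). -/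
theorem exists_isFrobeniusAt_generates (hp : p.Prime) (hA : A.LiesOverPrime p)
    (F : IntermediateField ℚ Qb) [FiniteDimensional ℚ F] [Normal ℚ F] :
    ∃ φ : GQ, A.IsFrobeniusAt φ p ∧ ∀ σ ∈ A.decompositionSubgroup ℚ,
      ∃ (k : ℕ) (ι : GQ), ι ∈ A.inertiaSubgroupIn ℚ ∧ (φ ^ k * ι)⁻¹ * σ ∈ F.fixingSubgroup := by
  haveI : Fact p.Prime := ⟨hp⟩
  set Q := primeOf A with hQ
  haveI hQmax : Q.IsMaximal := isMaximal_primeOf hp hA
  haveI hQl : Q.LiesOver (Ideal.span {(p : ℤ)}) := liesOver_primeOf hp hA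
  have hqQ : (p : Zbar) ∈ Q := natCast_mem_primeOf hA
  obtain ⟨φ, hφQ, hφ⟩ := exists_frob_stabilizer p Q
  refine ⟨φ, isFrobeniusAt_of_primeOf hp hA hφQ hφ, fun σ hσ => ?_⟩
  have hσQ : σ • Q = Q := smul_primeOf_eq_of_mem_decomp hσ
  have hnormal : (F.fixingSubgroup).Normal := by
    have h1 : IsGalois ℚ F := ⟨⟩
    have h2 : IsGalois ℚ Qb := ⟨⟩
    exact @IsGalois.fixingSubgroup_normal_of_isGalois ℚ Qb _ _ _ F h2 h1
  obtain ⟨k, hk⟩ := exists_pow_frob_on_fixed F.fixingSubgroup p Q hqQ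
    (finite_quot_fixedZ F p Q hqQ) σ hσQ (fun h hh => by
      have := hnormal.conj_mem h hh σ⁻¹
      rwa [inv_inv] at this)
  have hφk : ∀ k : ℕ, (φ ^ k) • Q = Q ∧ ∀ c : Zbar, (φ ^ k) • c - c ^ (p ^ k) ∈ Q := by
    intro k
    induction k with
    | zero => exact ⟨by rw [pow_zero, one_smul], fun c => by simp⟩
    | succ k ih =>
      refine ⟨by rw [pow_succ, mul_smul, hφQ, ih.1], fun c => ?_⟩
      have h1 : (φ ^ (k + 1)) • c - c ^ (p ^ (k + 1))
          = (φ ^ k) • (φ • c - c ^ p) + ((φ ^ k) • (c ^ p) - (c ^ p) ^ (p ^ k)) := by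
        rw [pow_succ, mul_smul, smul_sub, pow_succ', pow_mul]
        ring
      rw [h1]
      refine Q.add_mem ?_ (ih.2 (c ^ p))
      have := Ideal.smul_mem_pointwise_smul (φ ^ k) _ Q (hφ c)
      rwa [ih.1] at this
  obtain ⟨hφkQ, hφk'⟩ := hφk k
  set ψ : GQ := (φ ^ k)⁻¹ * σ with hψ
  have hinvQ : (φ ^ k)⁻¹ • Q = Q := by
    conv_lhs => rw [← hφkQ]
    rw [inv_smul_smul]
  have hψQ : ψ • Q = Q := by rw [hψ, mul_smul, hσQ, hinvQ]
  have hψfix : ∀ a : Zbar, (∀ h : F.fixingSubgroup, h • a = a) → ψ • a - a ∈ Q := by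
    intro a ha
    have h1 : σ • a - (φ ^ k) • a ∈ Q := by
      have := Q.sub_mem (hk ⟨a, ha⟩) (hφk' a)
      rwa [sub_sub_sub_cancel_right] at this
    have h2 := Ideal.smul_mem_pointwise_smul (φ ^ k)⁻¹ _ Q h1
    rw [hinvQ, smul_sub, inv_smul_smul, ← mul_smul] at h2
    exact h2
  obtain ⟨h, hhF, hhQ, hh⟩ := exists_lift_of_fixes F.fixingSubgroup
    (IntermediateField.fixingSubgroup_isClosed F) Q ψ hψQ hψfix
  have hhinvQ : h⁻¹ • Q = Q := by
    conv_lhs => rw [← hhQ]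
    rw [inv_smul_smul]
  have hι : ψ * h⁻¹ ∈ A.inertiaSubgroupIn ℚ := by
    refine mem_inertia_of_primeOf hp hA (by rw [mul_smul, hhinvQ, hψQ]) (fun c => ?_)
    have := hh (h⁻¹ • c)
    rw [smul_inv_smul, ← mul_smul] at this
    have h2 := Q.neg_mem this
    rwa [neg_sub] at h2
  refine ⟨k, ψ * h⁻¹, hι, ?_⟩
  have : (φ ^ k * (ψ * h⁻¹))⁻¹ * σ = h := by
    rw [hψ]
    group
  rw [this]
  exact hhF

/-- all Frobenius elements at `A` have the same value under the quotient character -/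
theorem OrdBasis.matOf_11_frob (h : OrdBasis A p ρ b) {φ φ' : GQ} (hφ : A.IsFrobeniusAt φ p)
    (hφ' : A.IsFrobeniusAt φ' p) : matOf ρ b φ' 1 1 = matOf ρ b φ 1 1 := by
  have h1 : φ' = φ * (φ⁻¹ * φ') := by group
  rw [h1, h.matOf_11_mul hφ.mem_decompositionSubgroup,
    h.matOf_11 (inv_mul_mem_inertia_of_isFrobeniusAt hφ hφ'), mul_one]

/-- **the quotient character is topologically a power of its value at a Frobenius element** -/
theorem OrdBasis.exists_pow_frob (hp : p.Prime) (hA : A.LiesOverPrime p) (h : OrdBasis A p ρ b) {φ : GQ}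
    (hφ : A.IsFrobeniusAt φ p) {σ : GQ} (hσ : σ ∈ DA A) (n : ℕ) :
    ∃ k : ℕ, matOf ρ b σ 1 1 - matOf ρ b φ 1 1 ^ k ∈ maximalIdeal R ^ n := by
  obtain ⟨L, hL, hLc⟩ := matCont_matOf ρ b n
  haveI := hL
  haveI : FiniteDimensional ℚ (IntermediateField.normalClosure ℚ L Qb) :=
    normalClosure.is_finiteDimensional ℚ L Qb
  haveI : Normal ℚ (IntermediateField.normalClosure ℚ L Qb) := normalClosure.normal ℚ L Qb
  obtain ⟨φ', hφ', hgen⟩ := exists_isFrobeniusAt_generates hp hA (IntermediateField.normalClosure ℚ L Qb)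
  obtain ⟨k, ι, hι, hfix⟩ := hgen σ hσ
  refine ⟨k, ?_⟩
  set g : GQ := (φ' ^ k * ι)⁻¹ * σ with hg
  have hφ'D : φ' ∈ DA A := hφ'.mem_decompositionSubgroup
  have hιD : ι ∈ DA A := F.IA_le_DA A hι
  have h1 : σ = φ' ^ k * (ι * g) := by rw [hg]; group
  have h2 : matOf ρ b σ 1 1 = matOf ρ b φ 1 1 ^ k * matOf ρ b g 1 1 := by
    conv_lhs => rw [h1]
    rw [h.matOf_11_mul (Subgroup.pow_mem _ hφ'D k), h.matOf_11_pow hφ'D, h.matOf_11_mul hιD,
      h.matOf_11 hι, one_mul, h.matOf_11_frob hφ hφ']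
  have h3 : matOf ρ b g 1 1 - 1 ∈ maximalIdeal R ^ n := by
    have := hLc g (fun x hx => hfix ⟨x, IntermediateField.le_normalClosure L hx⟩) 1 1
    rwa [Matrix.sub_apply, Matrix.one_apply_eq] at this
  have h4 : matOf ρ b σ 1 1 - matOf ρ b φ 1 1 ^ k = matOf ρ b φ 1 1 ^ k * (matOf ρ b g 1 1 - 1) := by
    rw [h2]; ring
  rw [h4]
  exact Ideal.mul_mem_left _ _ h3

/-- **STRICT-T item (6)**: `z ^ 2 = 1` on the decomposition group follows from `z φ ^ 2 = 1` at one Frobenius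
element. -/
theorem OrdBasis.sq_eq_one_of_frobenius [IsHausdorff (maximalIdeal R) R] (hp : p.Prime)
    (hA : A.LiesOverPrime p) (h : OrdBasis A p ρ b) {φ : GQ} (hφ : A.IsFrobeniusAt φ p)
    (hz : matOf ρ b φ 1 1 ^ 2 = 1) : ∀ σ ∈ DA A, matOf ρ b σ 1 1 ^ 2 = 1 := by
  intro σ hσ
  rw [← sub_eq_zero]
  refine IsHausdorff.haus' (I := maximalIdeal R) _ fun n => ?_
  rw [SModEq.zero, smul_eq_mul, Ideal.mul_top]
  obtain ⟨k, hk⟩ := h.exists_pow_frob hp hA hφ hσ n
  have h1 : matOf ρ b σ 1 1 ^ 2 - 1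
      = (matOf ρ b σ 1 1 - matOf ρ b φ 1 1 ^ k) * (matOf ρ b σ 1 1 + matOf ρ b φ 1 1 ^ k) := by
    have h2 : (matOf ρ b φ 1 1 ^ k) ^ 2 = 1 := by rw [← pow_mul, mul_comm, pow_mul, hz, one_pow]
    linear_combination h2
  rw [h1]
  exact Ideal.mul_mem_right _ _ hk

end frob

end Fermat.Agent.S59lib.R3
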