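/-
S59lib / R3 / Cot  (helper9) — Project I, PS2-b: the cotangent bound for the wild ideal.

* `length_cotImage_wild` : if `(z² − 1) m = 0` in `R` and `u₀ = π z` satisfies `u₀² ≠ 1` in the domain `𝒪`, the image
  of the ideal `(m)` in the cotangent space of `π : R → 𝒪` is cyclic and killed by `u₀² − 1`:
  `length (cotImage π (m)) ≤ length (𝒪 / (u₀² − 1))`.
* `mem_of_forall_mem_sup_pow` : ideals of a noetherian local ring are closed (Krull).
* `length_cotangent_le_of_ord` : the numerical-criterion step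
  `length Φ_R ≤ length (𝒪 / (u₀² − 1)) + length Φ_{R''}` for `ψ : R ↠ R''` whose kernel lies in every ideal of
  finite index with a flat level.
-/
import Mathlib
import Fermat.Agent.S59lib.R3.Main
import Fermat.Agent.S59lib.N2.Alg

set_option autoImplicit false
set_option linter.unusedSectionVars false
set_option linter.style.haveILetI false

noncomputable section

namespace Fermat.Agent.S59lib.R3

open Fermat.Agent.S19lib IsLocalRing Fermat.Agent.S59lib.N2

local notation "Qb" => AlgebraicClosure ℚ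
local notation "GQ" => (AlgebraicClosure ℚ ≃ₐ[ℚ] AlgebraicClosure ℚ)

section krull

variable {R : Type*} [CommRing R] [IsLocalRing R] [IsNoetherianRing R]

/-- ideals of a noetherian local ring are closed -/
theorem mem_of_forall_mem_sup_pow (J : Ideal R) {x : R}
    (hx : ∀ n : ℕ, x ∈ J ⊔ maximalIdeal R ^ n) : x ∈ J := by
  have hH : IsHausdorff (maximalIdeal R) (R ⧸ J) := inferInstance
  have h0 : Ideal.Quotient.mk J x = 0 := by
    refine hH.haus _ fun n => ?_
    rw [SModEq.sub_mem, sub_zero]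
    obtain ⟨j, hj, y, hy, rfl⟩ := Submodule.mem_sup.mp (hx n)
    have e : Ideal.Quotient.mk J (j + y) = y • (1 : R ⧸ J) := by
      rw [map_add, Ideal.Quotient.eq_zero_iff_mem.mpr hj, zero_add, Algebra.smul_def, mul_one]
      rfl
    rw [e]
    exact Submodule.smul_mem_smul hy Submodule.mem_top
  exact Ideal.Quotient.eq_zero_iff_mem.mp h0

end krull

section cot

variable {𝒪 : Type*} [CommRing 𝒪] [IsDomain 𝒪] {R : Type*} [CommRing R] [Algebra 𝒪 R]
  (π : R →ₐ[𝒪] 𝒪)

theorem pi_eq_zero_of_rel {m z : R} (h : (z ^ 2 - 1) * m = 0) (hu : π z ^ 2 ≠ 1) : π m = 0 := by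
  have h1 : (π z ^ 2 - 1) * π m = 0 := by
    rw [← map_pow, ← map_one π, ← map_sub, ← map_mul, h, map_zero]
  exact (mul_eq_zero.mp h1).resolve_left (sub_ne_zero.mpr hu)

/-- **PS2-b**: the image of the wild ideal in the cotangent space -/
theorem length_cotImage_wild {m z : R} (h : (z ^ 2 - 1) * m = 0) (hu : π z ^ 2 ≠ 1) :
    Module.length 𝒪 (cotImage π (Ideal.span {m})) ≤
      Module.length 𝒪 (𝒪 ⧸ Ideal.span {π z ^ 2 - 1}) := by
  have hm : π m = 0 := pi_eq_zero_of_rel π h hu
  have hmk : m ∈ RingHom.ker (π : R →+* 𝒪) := hm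
  set x := (RingHom.ker (π : R →+* 𝒪)).toCotangent ⟨m, hmk⟩ with hx
  set c : 𝒪 := π z ^ 2 - 1 with hc
  have hcx : c • x = 0 := by
    have h1 : (z ^ 2 - 1) • x = c • x := by
      rw [smul_cotangent, map_sub, map_pow, map_one]
    rw [← h1, hx, ← map_smul]
    have h2 : (z ^ 2 - 1) • (⟨m, hmk⟩ : RingHom.ker (π : R →+* 𝒪)) = 0 := Subtype.ext h
    rw [h2, map_zero]
  have hle : cotImage π (Ideal.span {m}) ≤ Submodule.span 𝒪 {x} := by
    refine cotImage_span_le π (S := {m})
      (fun s hs => by rw [Set.mem_singleton_iff.mp hs]; exact hm) _ (fun s hs => ?_)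
    have e : s = m := Set.mem_singleton_iff.mp hs
    subst e
    exact Submodule.subset_span rfl
  let f : 𝒪 →ₗ[𝒪] (RingHom.ker (π : R →+* 𝒪)).Cotangent := LinearMap.toSpanSingleton 𝒪 _ x
  have hfker : Ideal.span {c} ≤ LinearMap.ker f := by
    rw [Ideal.span_le]
    intro y hy
    rw [Set.mem_singleton_iff.mp hy]
    show f c = 0
    exact hcx
  let g : (𝒪 ⧸ Ideal.span {c}) →ₗ[𝒪] (RingHom.ker (π : R →+* 𝒪)).Cotangent :=
    Submodule.liftQ (Ideal.span {c}) f hfker
  have hrange : LinearMap.range g = Submodule.span 𝒪 {x} := by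
    rw [Submodule.range_liftQ]
    exact LinearMap.range_toSpanSingleton x
  calc Module.length 𝒪 (cotImage π (Ideal.span {m}))
      ≤ Module.length 𝒪 (LinearMap.range g) := by
        rw [hrange]
        exact Module.length_le_of_injective (Submodule.inclusion hle)
          (Submodule.inclusion_injective hle)
    _ ≤ Module.length 𝒪 (𝒪 ⧸ Ideal.span {c}) :=
        Module.length_le_of_surjective g.rangeRestrict g.surjective_rangeRestrict

end cot

section step

variable {A : ValuationSubring Qb} {p : ℕ} {R : Type} [CommRing R] [IsLocalRing R]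
  [IsNoetherianRing R] [IsAdicComplete (maximalIdeal R) R] [Finite (ResidueField R)]
  {ρ : GaloisRepAdic R} {b : Module.Basis (Fin 2) R ρ.V}
  {𝒪 : Type*} [CommRing 𝒪] [IsDomain 𝒪] [Algebra 𝒪 R]

/-- **the PSTEP inequality (Galois side).**  `ρ` ordinary at `A ∣ p` in the basis `b`, `φ ∈ D_A` acting on the
unramified quotient by `z`, `u₀ = π z` with `u₀² ≠ 1`, and `ψ : R ↠ R''` a surjection of augmented `𝒪`-algebras whose
kernel lies in every ideal `I` of finite index such that the level `V / I V` is flat.  Then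
`length Φ_R ≤ length (𝒪 / (u₀² − 1)) + length Φ_{R''}`. -/
theorem length_cotangent_le_of_ord [Fact p.Prime] (hA : A.LiesOverPrime p) (h : OrdBasis A p ρ b)
    (π : R →ₐ[𝒪] 𝒪) {R'' : Type*} [CommRing R''] [Algebra 𝒪 R''] (π'' : R'' →ₐ[𝒪] 𝒪)
    (ψ : R →ₐ[𝒪] R'') (hψ : Function.Surjective ψ) (hπ : π''.comp ψ = π)
    (hflat : ∀ I : Ideal R, Finite (R ⧸ I) → Fermat.Agent.S32lib.FlatLevel p ρ I →
      RingHom.ker (ψ : R →+* R'') ≤ I)
    {φ : GQ} (hφ : φ ∈ DA A) {z : R} (hz : ρ.ρ φ (b 1) - z • b 1 ∈ Submodule.span R {b 0})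
    (hu : π z ^ 2 ≠ 1) :
    Module.length 𝒪 (RingHom.ker (π : R →+* 𝒪)).Cotangent ≤
      Module.length 𝒪 (𝒪 ⧸ Ideal.span {π z ^ 2 - 1}) +
        Module.length 𝒪 (RingHom.ker (π'' : R'' →+* 𝒪)).Cotangent := by
  obtain ⟨m, hrel, hfl⟩ := h.exists_wildElt hA
  have hker : RingHom.ker (ψ : R →+* R'') ≤ Ideal.span {m} := by
    intro x hx
    refine mem_of_forall_mem_sup_pow _ fun n => ?_
    have hfin : Finite (R ⧸ (Ideal.span {m} ⊔ maximalIdeal R ^ n)) :=
      IsLocalRing.finite_quotient_iff.mpr ⟨n, le_sup_right⟩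
    exact hflat _ hfin (hfl _ (le_sup_left (a := Ideal.span {m})
      (Ideal.subset_span (Set.mem_singleton m))) hfin) hx
  refine (length_cotangent_le_add π π'' ψ hψ hπ _ hker).trans ?_
  exact add_le_add_left (length_cotImage_wild π (hrel φ hφ z hz) hu) _

end step

end Fermat.Agent.S59lib.R3
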