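/-
S59lib / R3 / Flat  (helper9) — Project I, risk item R3: from Kummer data to a finite flat model.

`hasFlatModel_of_kumData` : a finite `G_ℚ`-module `J` with Kummer data `KumData A K` at a place `A ∣ p` (inertia acts
trivially on `J/K`, through the cyclotomic character on `K`, and all Kummer classes are classes of units) has a finite
flat model over `ℤ_(p)`: the Kummer Hopf order `kummerOrder`, its `D_A`-saturation (helper6, `FlatSS/Order`), then the
descent FF-G and the packing FF-H of `S19lib`.
-/
import Mathlib
import Fermat.Agent.S59lib.R3.Order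
import Fermat.Agent.S59lib.FlatSS.Order
import Fermat.Agent.S32lib.FM.Sub

set_option autoImplicit false
set_option linter.unusedSectionVars false
set_option linter.style.haveILetI false

noncomputable section

namespace Fermat.Agent.S59lib.R3

open Fermat.Agent.S19lib

local notation "Qb" => AlgebraicClosure ℚ
local notation "GQ" => (AlgebraicClosure ℚ ≃ₐ[ℚ] AlgebraicClosure ℚ)

variable {A : ValuationSubring Qb} {J : Type} [AddCommGroup J] [DistribMulAction GQ J]
  {K : AddSubgroup J}

/-- **Kummer data give a finite flat model.** -/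
theorem hasFlatModel_of_kumData [Finite J] {p : ℕ} [Fact p.Prime] (hA : A.LiesOverPrime p)
    (hJ : IsFiniteGaloisSubmodule (⊤ : AddSubgroup J)) (D : KumData A K) :
    Fermat.Agent.S32lib.HasFlatModel p J (fun σ x => σ • x) := by
  have h := Fermat.Agent.S59lib.FlatSS.hasFlatModel_core hA hJ le_rfl
    (kummerOrder (Fact.out : p.Prime) hA D)
  let e : (Fermat.Agent.S59lib.FlatSS.core (⊤ : AddSubgroup J)) ≃+ J :=
    { toFun := fun x => x.1
      invFun := fun x => ⟨x, fun _ => AddSubgroup.mem_top _⟩
      left_inv := fun _ => rfl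
      right_inv := fun _ => rfl
      map_add' := fun _ _ => rfl }
  exact h.of_equiv e (fun σ x => rfl)

/-- the hypotheses on `⊤` from finiteness and continuity -/
theorem isFiniteGaloisSubmodule_top [Finite J]
    (hcont : ∃ E : IntermediateField ℚ Qb, FiniteDimensional ℚ E ∧
      ∀ σ : GQ, (∀ e ∈ E, σ e = e) → ∀ x : J, σ • x = x) :
    IsFiniteGaloisSubmodule (⊤ : AddSubgroup J) := by
  obtain ⟨E, hE, h⟩ := hcont
  exact ⟨inferInstance, fun _ _ _ => AddSubgroup.mem_top _, fun x _ => ⟨E, hE, fun σ hσ => h σ hσ x⟩⟩

end Fermat.Agent.S59lib.R3
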