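/-
S59lib / R3 / Gen  (helper9) — Project I, risk item R3 (Kummer Hopf orders for the step at `p`).

`J` a finite `G_ℚ`-module, `A ∣ p` a place of `ℚ̄`, `K ≤ J` a subgroup such that the inertia group `I_A` acts
trivially on `J/K` and through the cyclotomic character on `K` (i.e. every character `χ : K → ℚ̄ˣ` is
`I_A`-equivariant), and such that all the Kummer classes `σ ↦ χ (σ x - x)` are classes of UNITS:
`σ t = χ (σ x - x) t` with `v(t) = 1` (`KumData`).

The generators of the Hopf order: `IsGen K x₀ χ φ` — `φ : J → ℚ̄` is supported on the coset `x₀ + K`,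
unit-valued there, `I_A`-equivariant, and `φ (x + y) = φ x · χ y` for `y ∈ K`.
-/
import Mathlib
import Fermat.Agent.S19lib.Iface
import Fermat.Agent.S19lib.F.ToIface

set_option autoImplicit false
set_option linter.unusedSectionVars false
set_option linter.style.haveILetI false

noncomputable section

namespace Fermat.Agent.S59lib.R3

open Fermat.Agent.S19lib

local notation "Qb" => AlgebraicClosure ℚ
local notation "GQ" => (AlgebraicClosure ℚ ≃ₐ[ℚ] AlgebraicClosure ℚ)

variable (A : ValuationSubring Qb) {J : Type} [AddCommGroup J] [DistribMulAction GQ J]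
  (K : AddSubgroup J)

/-- **Kummer data**: inertia acts trivially on `J/K`, through the cyclotomic character on `K`, and the Kummer
classes of the extension are classes of units. -/
structure KumData : Prop where
  sub_mem : ∀ σ ∈ IA A, ∀ x : J, σ • x - x ∈ K
  char_smul : ∀ σ ∈ IA A, ∀ (y : K) (hy : σ • (y : J) ∈ K) (χ : AddChar K Qb),
    χ ⟨σ • (y : J), hy⟩ = σ (χ y)
  unit : ∀ (x : J) (χ : AddChar K Qb), ∃ t : Qb, A.valuation t = 1 ∧
    ∀ σ (hσ : σ ∈ IA A), σ t = χ ⟨σ • x - x, sub_mem σ hσ x⟩ * t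

variable {A K}

theorem KumData.smul_mem (D : KumData A K) {σ : GQ} (hσ : σ ∈ IA A) {y : J} (hy : y ∈ K) :
    σ • y ∈ K := by
  have h := K.add_mem (D.sub_mem σ hσ y) hy
  rwa [sub_add_cancel] at h

variable (A K)

/-- the generators of the order -/
def IsGen (x₀ : J) (χ : AddChar K Qb) (φ : J → Qb) : Prop :=
  (∀ x, x - x₀ ∉ K → φ x = 0) ∧ (∀ x, x - x₀ ∈ K → A.valuation (φ x) = 1) ∧
  (∀ (x : J) (y : K), φ (x + y) = φ x * χ y) ∧ (∀ σ ∈ IA A, ∀ x, φ (σ • x) = σ (φ x))

variable {A K}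

/-- roots of unity are units -/
theorem val_addChar [Finite J] (χ : AddChar K Qb) (y : K) : A.valuation (χ y) = 1 := by
  have h1 : χ y ^ Nat.card K = 1 := by
    rw [← AddChar.map_nsmul_eq_pow, card_nsmul_eq_zero', AddChar.map_zero_eq_one]
  have h2 : A.valuation (χ y) ^ Nat.card K = 1 ^ Nat.card K := by
    rw [← map_pow, h1, map_one, one_pow]
  exact (pow_left_inj₀ zero_le zero_le Nat.card_pos.ne').mp h2

/-- existence of generators -/
theorem KumData.exists_isGen [Finite J] (D : KumData A K) (x₀ : J) (χ : AddChar K Qb) :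
    ∃ φ : J → Qb, IsGen A K x₀ χ φ := by
  classical
  obtain ⟨t, ht, hσt⟩ := D.unit x₀ χ
  refine ⟨fun x => if h : x - x₀ ∈ K then t * χ ⟨x - x₀, h⟩ else 0, ?_, ?_, ?_, ?_⟩
  · intro x hx
    simp only [hx, dif_neg, not_false_eq_true]
  · intro x hx
    simp only [hx, dif_pos]
    rw [map_mul, ht, one_mul, val_addChar]
  · intro x y
    by_cases hx : x - x₀ ∈ K
    · have hxy : x + y - x₀ ∈ K := by
        have := K.add_mem hx y.2
        rwa [sub_add_eq_add_sub] at this
      simp only [hx, hxy, dif_pos]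
      have e : (⟨x + y - x₀, hxy⟩ : K) = ⟨x - x₀, hx⟩ + y := by
        apply Subtype.ext
        show x + y - x₀ = x - x₀ + y
        abel
      rw [e, AddChar.map_add_eq_mul, mul_assoc]
    · have hxy : x + y - x₀ ∉ K := by
        intro h
        apply hx
        have := K.sub_mem h y.2
        rwa [add_sub_right_comm, add_sub_cancel_right] at this
      simp only [hx, hxy, dif_neg, not_false_eq_true, zero_mul]
  · intro σ hσ x
    by_cases hx : x - x₀ ∈ K
    · have hσx : σ • x - x₀ ∈ K := by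
        have h1 : σ • x - x₀ = σ • (x - x₀) + (σ • x₀ - x₀) := by rw [smul_sub]; abel
        rw [h1]
        exact K.add_mem (D.smul_mem hσ hx) (D.sub_mem σ hσ x₀)
      simp only [hx, hσx, dif_pos]
      have e : (⟨σ • x - x₀, hσx⟩ : K) =
          ⟨σ • x₀ - x₀, D.sub_mem σ hσ x₀⟩ + ⟨σ • (x - x₀), D.smul_mem hσ hx⟩ := by
        apply Subtype.ext
        show σ • x - x₀ = σ • x₀ - x₀ + σ • (x - x₀)
        rw [smul_sub]; abel
      rw [e, AddChar.map_add_eq_mul, map_mul, hσt σ hσ,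
        ← D.char_smul σ hσ ⟨x - x₀, hx⟩ (D.smul_mem hσ hx) χ]
      ring
    · have hσx : σ • x - x₀ ∉ K := by
        intro h
        apply hx
        have h1 : σ • (x - x₀) = (σ • x - x₀) - (σ • x₀ - x₀) := by rw [smul_sub]; abel
        have h2 : σ • (x - x₀) ∈ K := by
          rw [h1]
          exact K.sub_mem h (D.sub_mem σ hσ x₀)
        have h3 := D.smul_mem ((IA A).inv_mem hσ) h2
        rwa [inv_smul_smul] at h3
      simp only [hx, hσx, dif_neg, not_false_eq_true, map_zero]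

/-! ### operations on generators -/

theorem IsGen.ne_zero {x₀ : J} {χ : AddChar K Qb} {φ : J → Qb} (h : IsGen A K x₀ χ φ) {x : J}
    (hx : x - x₀ ∈ K) : φ x ≠ 0 := by
  intro h0
  have := h.2.1 x hx
  rw [h0, map_zero] at this
  exact zero_ne_one this

theorem IsGen.mem_A [Finite J] {x₀ : J} {χ : AddChar K Qb} {φ : J → Qb} (h : IsGen A K x₀ χ φ)
    (x : J) : φ x ∈ A := by
  by_cases hx : x - x₀ ∈ K
  · rw [← A.valuation_le_one_iff, h.2.1 x hx]
  · rw [h.1 x hx]
    exact A.zero_mem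

/-- change of the base point inside the coset -/
theorem IsGen.congr_base {x₀ x₁ : J} {χ : AddChar K Qb} {φ : J → Qb} (h : IsGen A K x₀ χ φ)
    (h01 : x₁ - x₀ ∈ K) : IsGen A K x₁ χ φ := by
  have key : ∀ x, x - x₁ ∈ K ↔ x - x₀ ∈ K := by
    intro x
    constructor
    · intro hx
      have := K.add_mem hx h01
      rwa [sub_add_sub_cancel] at this
    · intro hx
      have := K.sub_mem hx h01
      rwa [sub_sub_sub_cancel_right] at this
  exact ⟨fun x hx => h.1 x (fun h' => hx ((key x).mpr h')), fun x hx => h.2.1 x ((key x).mp hx),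
    h.2.2.1, h.2.2.2⟩

/-- the product of two generators on the same coset -/
theorem IsGen.mul {x₀ x₁ : J} {χ χ' : AddChar K Qb} {φ ψ : J → Qb} (h : IsGen A K x₀ χ φ)
    (h' : IsGen A K x₁ χ' ψ) (h01 : x₁ - x₀ ∈ K) : IsGen A K x₀ (χ * χ') (fun x => φ x * ψ x) := by
  have h'' := h'.congr_base (x₁ := x₀) (by
    have := K.neg_mem h01
    rwa [neg_sub] at this)
  refine ⟨fun x hx => ?_, fun x hx => ?_, fun x y => ?_, fun σ hσ x => ?_⟩
  · beta_reduce
    rw [h.1 x hx, zero_mul]
  · beta_reduce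
    rw [map_mul, h.2.1 x hx, h''.2.1 x hx, one_mul]
  · beta_reduce
    rw [h.2.2.1, h''.2.2.1, AddChar.mul_apply]
    ring
  · beta_reduce
    rw [h.2.2.2 σ hσ, h''.2.2.2 σ hσ, map_mul]

/-- the product of two generators on different cosets vanishes -/
theorem IsGen.mul_eq_zero {x₀ x₁ : J} {χ χ' : AddChar K Qb} {φ ψ : J → Qb} (h : IsGen A K x₀ χ φ)
    (h' : IsGen A K x₁ χ' ψ) (h01 : x₁ - x₀ ∉ K) (x : J) : φ x * ψ x = 0 := by
  by_cases hx : x - x₀ ∈ K
  · have hx' : x - x₁ ∉ K := by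
      intro h1
      apply h01
      have := K.sub_mem hx h1
      rwa [sub_sub_sub_cancel_left] at this
    rw [h'.1 x hx', mul_zero]
  · rw [h.1 x hx, zero_mul]

/-- the antipode of a generator -/
theorem IsGen.neg {x₀ : J} {χ : AddChar K Qb} {φ : J → Qb} (h : IsGen A K x₀ χ φ) :
    IsGen A K (-x₀) χ⁻¹ (fun x => φ (-x)) := by
  have key : ∀ x, -x - x₀ ∈ K ↔ x - -x₀ ∈ K := by
    intro x
    rw [sub_neg_eq_add, ← K.neg_mem_iff, neg_sub, sub_neg_eq_add, add_comm]
  refine ⟨fun x hx => h.1 _ (fun h' => hx ((key x).mp h')), fun x hx => h.2.1 _ ((key x).mpr hx),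
    fun x y => ?_, fun σ hσ x => ?_⟩
  · beta_reduce
    rw [neg_add, ← AddSubgroup.coe_neg, h.2.2.1, AddChar.inv_apply]
  · beta_reduce
    rw [← smul_neg, h.2.2.2 σ hσ]

/-- two generators with the same data differ by an inertia-fixed unit -/
theorem IsGen.ratio (D : KumData A K) {x₀ : J} {χ : AddChar K Qb} {φ φ' : J → Qb}
    (h : IsGen A K x₀ χ φ) (h' : IsGen A K x₀ χ φ') :
    ∃ r : Qb, r ∈ A0 A ∧ A.valuation r = 1 ∧ ∀ x, φ' x = r * φ x := by
  have h0 : x₀ - x₀ ∈ K := by rw [sub_self]; exact K.zero_mem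
  have hne := h.ne_zero h0
  have hval : A.valuation (φ' x₀ / φ x₀) = 1 := by
    rw [map_div₀, h.2.1 x₀ h0, h'.2.1 x₀ h0, div_one]
  have hform : ∀ x, φ' x = φ' x₀ / φ x₀ * φ x := by
    intro x
    by_cases hx : x - x₀ ∈ K
    · have e : x = x₀ + ((⟨x - x₀, hx⟩ : K) : J) := by
        show x = x₀ + (x - x₀)
        abel
      rw [e, h.2.2.1, h'.2.2.1]
      field_simp
    · rw [h.1 x hx, h'.1 x hx, mul_zero]
  refine ⟨φ' x₀ / φ x₀, ⟨?_, fun σ hσ => ?_⟩, hval, hform⟩
  · rw [← A.valuation_le_one_iff, hval]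
  · have hσ0 : σ • x₀ - x₀ ∈ K := D.sub_mem σ hσ x₀
    have e1 := h.2.2.2 σ hσ x₀
    have e2 := h'.2.2.2 σ hσ x₀
    rw [hform (σ • x₀), e1] at e2
    rw [map_div₀, ← e1]
    have hne' : φ (σ • x₀) ≠ 0 := h.ne_zero hσ0
    rw [e1] at hne'
    rw [e1, ← e2]
    field_simp

/-- the indicator function of a coset is a generator (for the trivial character) -/
theorem isGen_indicator [DecidablePred (· ∈ K)] (D : KumData A K) (x₀ : J) :
    IsGen A K x₀ 1 (fun x => if x - x₀ ∈ K then 1 else 0) := by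
  refine ⟨fun x hx => by simp only [hx, if_false], fun x hx => by simp only [hx, if_true, map_one],
    fun x y => ?_, fun σ hσ x => ?_⟩
  · have key : x + y - x₀ ∈ K ↔ x - x₀ ∈ K := by
      rw [add_sub_right_comm]
      exact K.add_mem_cancel_right y.2
    simp only [key, AddChar.one_apply, mul_one]
  · have key : σ • x - x₀ ∈ K ↔ x - x₀ ∈ K := by
      have h1 : σ • x - x₀ = (σ • x - x) + (x - x₀) := by abel
      rw [h1]
      exact K.add_mem_cancel_left (D.sub_mem σ hσ x)
    simp only [key]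
    split_ifs
    · rw [map_one]
    · rw [map_zero]

end Fermat.Agent.S59lib.R3
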