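/-
S59lib / R3 / Order  (helper9) — Project I, risk item R3: the Kummer Hopf order.

`ordSet A K` : the `A0`-span of the generators `IsGen A K x₀ χ φ` inside `J → ℚ̄`.  It contains `1`, is closed under
products, comultiplication and antipode, consists of `I_A`-equivariant `A`-valued functions, and is full
(Fourier inversion on `K`): `kummerOrder` is an `A0`-Hopf order on `J` (as the subgroup `⊤`).
-/
import Mathlib
import Fermat.Agent.S59lib.R3.Gen
import Fermat.Agent.S59lib.R3.Char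
import Fermat.Agent.S19lib.F.RankOne

set_option autoImplicit false
set_option linter.unusedSectionVars false
set_option linter.style.haveILetI false

noncomputable section

namespace Fermat.Agent.S59lib.R3

open Fermat.Agent.S19lib

local notation "Qb" => AlgebraicClosure ℚ
local notation "GQ" => (AlgebraicClosure ℚ ≃ₐ[ℚ] AlgebraicClosure ℚ)

variable (A : ValuationSubring Qb) {J : Type} [AddCommGroup J] [DistribMulAction GQ J]
  (K : AddSubgroup J)

/-- the set of generators -/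
def genSet : Set (J → Qb) := {φ | ∃ x₀ χ, IsGen A K x₀ χ φ}

/-- the Kummer order: the `A0`-span of the generators -/
def ordSet : Set (J → Qb) := {φ | φ ∈ Submodule.span (A0 A) (genSet A K)}

variable {A K}

theorem subset_ordSet {φ : J → Qb} (h : φ ∈ genSet A K) : φ ∈ ordSet A K :=
  Submodule.subset_span h

theorem ordSet_add {φ ψ : J → Qb} (hφ : φ ∈ ordSet A K) (hψ : ψ ∈ ordSet A K) :
    (fun x => φ x + ψ x) ∈ ordSet A K := by
  have := Submodule.add_mem (Submodule.span (A0 A) (genSet A K)) hφ hψ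
  exact this

theorem ordSet_zero : (fun _ => (0 : Qb)) ∈ ordSet A K (J := J) := by
  have := Submodule.zero_mem (Submodule.span (A0 A) (genSet A K (J := J)))
  exact this

theorem ordSet_smul {r : Qb} (hr : r ∈ A0 A) {φ : J → Qb} (hφ : φ ∈ ordSet A K) :
    (fun x => r * φ x) ∈ ordSet A K := by
  have := Submodule.smul_mem (Submodule.span (A0 A) (genSet A K)) (⟨r, hr⟩ : A0 A) hφ
  exact this

/-- induction principle for the order -/
theorem ordSet_induction {P : (J → Qb) → Prop} (hgen : ∀ φ ∈ genSet A K, P φ)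
    (hzero : P (fun _ => 0)) (hadd : ∀ φ ψ, P φ → P ψ → P (fun x => φ x + ψ x))
    (hsmul : ∀ r ∈ A0 A, ∀ φ, P φ → P (fun x => r * φ x)) {φ : J → Qb} (hφ : φ ∈ ordSet A K) :
    P φ := by
  refine Submodule.span_induction (p := fun φ _ => P φ) (fun φ h => hgen φ h) hzero
    (fun φ ψ _ _ h1 h2 => hadd φ ψ h1 h2) (fun r φ _ h => hsmul r.1 r.2 φ h) hφ

/-! ### equivariance, integrality -/

theorem ordSet_equivariant {φ : J → Qb} (hφ : φ ∈ ordSet A K) :
    ∀ σ ∈ IA A, ∀ x, φ (σ • x) = σ (φ x) := by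
  refine ordSet_induction (P := fun φ => ∀ σ ∈ IA A, ∀ x, φ (σ • x) = σ (φ x)) ?_ ?_ ?_ ?_ hφ
  · rintro φ ⟨x₀, χ, h⟩
    exact h.2.2.2
  · intro σ _ x
    rw [map_zero]
  · intro φ ψ h1 h2 σ hσ x
    beta_reduce
    rw [h1 σ hσ, h2 σ hσ, map_add]
  · intro r hr φ h σ hσ x
    beta_reduce
    rw [h σ hσ, map_mul, hr.2 σ hσ]

theorem ordSet_integral [Finite J] {φ : J → Qb} (hφ : φ ∈ ordSet A K) : ∀ x, φ x ∈ A := by
  refine ordSet_induction (P := fun φ => ∀ x, φ x ∈ A) ?_ ?_ ?_ ?_ hφ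
  · rintro φ ⟨x₀, χ, h⟩
    exact h.mem_A
  · exact fun _ => A.zero_mem
  · exact fun φ ψ h1 h2 x => A.add_mem _ _ (h1 x) (h2 x)
  · exact fun r hr φ h x => A.mul_mem _ _ hr.1 (h x)

/-! ### products, unit, antipode -/

theorem ordSet_mul {φ ψ : J → Qb} (hφ : φ ∈ ordSet A K) (hψ : ψ ∈ ordSet A K) :
    (fun x => φ x * ψ x) ∈ ordSet A K := by
  classical
  -- first `ψ` a generator
  have step : ∀ ψ ∈ genSet A K, ∀ φ ∈ ordSet A K, (fun x => φ x * ψ x) ∈ ordSet A K := by
    rintro ψ ⟨x₁, χ', h'⟩ φ hφ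
    refine ordSet_induction (P := fun φ => (fun x => φ x * ψ x) ∈ ordSet A K) ?_ ?_ ?_ ?_ hφ
    · rintro φ ⟨x₀, χ, h⟩
      by_cases h01 : x₁ - x₀ ∈ K
      · exact subset_ordSet ⟨x₀, χ * χ', h.mul h' h01⟩
      · have : (fun x => φ x * ψ x) = fun _ => 0 := funext (h.mul_eq_zero h' h01)
        rw [this]
        exact ordSet_zero
    · simp only [zero_mul]
      exact ordSet_zero
    · intro φ₁ φ₂ h1 h2
      have : (fun x => (φ₁ x + φ₂ x) * ψ x) = fun x => φ₁ x * ψ x + φ₂ x * ψ x :=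
        funext fun x => add_mul _ _ _
      rw [this]
      exact ordSet_add h1 h2
    · intro r hr φ₁ h1
      have : (fun x => r * φ₁ x * ψ x) = fun x => r * (φ₁ x * ψ x) :=
        funext fun x => mul_assoc _ _ _
      rw [this]
      exact ordSet_smul hr h1
  refine ordSet_induction (P := fun ψ => (fun x => φ x * ψ x) ∈ ordSet A K) ?_ ?_ ?_ ?_ hψ
  · intro ψ hψ
    exact step ψ hψ φ hφ
  · simp only [mul_zero]
    exact ordSet_zero
  · intro ψ₁ ψ₂ h1 h2
    have : (fun x => φ x * (ψ₁ x + ψ₂ x)) = fun x => φ x * ψ₁ x + φ x * ψ₂ x :=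
      funext fun x => mul_add _ _ _
    rw [this]
    exact ordSet_add h1 h2
  · intro r hr ψ₁ h1
    have : (fun x => φ x * (r * ψ₁ x)) = fun x => r * (φ x * ψ₁ x) :=
      funext fun x => mul_left_comm _ _ _
    rw [this]
    exact ordSet_smul hr h1

theorem ordSet_sum {ι : Type*} (s : Finset ι) (f : ι → J → Qb) (h : ∀ i ∈ s, f i ∈ ordSet A K) :
    (fun x => ∑ i ∈ s, f i x) ∈ ordSet A K := by
  classical
  induction s using Finset.induction_on with
  | empty =>
    simp only [Finset.sum_empty]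
    exact ordSet_zero
  | insert a s ha ih =>
    have : (fun x => ∑ i ∈ insert a s, f i x) = fun x => f a x + ∑ i ∈ s, f i x :=
      funext fun x => Finset.sum_insert ha
    rw [this]
    exact ordSet_add (h a (Finset.mem_insert_self a s))
      (ih fun i hi => h i (Finset.mem_insert_of_mem hi))

theorem ordSet_antipode {φ : J → Qb} (hφ : φ ∈ ordSet A K) : (fun x => φ (-x)) ∈ ordSet A K := by
  refine ordSet_induction (P := fun φ => (fun x => φ (-x)) ∈ ordSet A K) ?_ ?_ ?_ ?_ hφ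
  · rintro φ ⟨x₀, χ, h⟩
    exact subset_ordSet ⟨-x₀, χ⁻¹, h.neg⟩
  · exact ordSet_zero
  · exact fun φ ψ h1 h2 => ordSet_add h1 h2
  · exact fun r hr φ h => ordSet_smul hr h

/-- the constant function `1` is the sum of the indicators of the cosets -/
theorem ordSet_one [Finite J] (D : KumData A K) : (fun _ => (1 : Qb)) ∈ ordSet A K (J := J) := by
  classical
  haveI : Fintype (J ⧸ K) := Fintype.ofFinite _
  have e : (fun _ : J => (1 : Qb)) = fun x => ∑ c : J ⧸ K,
      (if x - Quotient.out c ∈ K then (1 : Qb) else 0) := by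
    funext x
    rw [Finset.sum_eq_single (QuotientAddGroup.mk x : J ⧸ K)]
    · have : x - Quotient.out (QuotientAddGroup.mk x : J ⧸ K) ∈ K := by
        have h1 : (QuotientAddGroup.mk (Quotient.out (QuotientAddGroup.mk x : J ⧸ K)) : J ⧸ K) =
            QuotientAddGroup.mk x := Quotient.out_eq' _
        rw [QuotientAddGroup.eq] at h1
        rw [sub_eq_neg_add]
        exact h1
      rw [if_pos this]
    · intro c _ hc
      rw [if_neg]
      intro h
      apply hc
      have h1 : (QuotientAddGroup.mk (Quotient.out c) : J ⧸ K) = QuotientAddGroup.mk x := by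
        rw [QuotientAddGroup.eq, ← sub_eq_neg_add]
        exact h
      rw [← h1]
      exact (Quotient.out_eq' c).symm
    · intro h
      exact absurd (Finset.mem_univ _) h
  rw [e]
  exact ordSet_sum _ _ fun c _ => subset_ordSet ⟨Quotient.out c, 1, isGen_indicator D _⟩

/-! ### comultiplication -/

/-- the comultiplication of a generator on a pair of cosets -/
theorem IsGen.comul_coeff (D : KumData A K) {x₀ x₁ x₂ : J} {χ : AddChar K Qb} {φ s₁ s₂ : J → Qb}
    (h : IsGen A K x₀ χ φ) (h₁ : IsGen A K x₁ χ s₁) (h₂ : IsGen A K x₂ χ s₂)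
    (h12 : x₁ + x₂ - x₀ ∈ K) :
    ∃ r ∈ A0 A, ∀ x y, x - x₁ ∈ K → y - x₂ ∈ K → φ (x + y) = r * s₁ x * s₂ y := by
  have h11 : x₁ - x₁ ∈ K := by rw [sub_self]; exact K.zero_mem
  have h22 : x₂ - x₂ ∈ K := by rw [sub_self]; exact K.zero_mem
  have hne1 := h₁.ne_zero h11
  have hne2 := h₂.ne_zero h22
  have hform : ∀ x y, x - x₁ ∈ K → y - x₂ ∈ K →
      φ (x + y) = φ (x₁ + x₂) / (s₁ x₁ * s₂ x₂) * s₁ x * s₂ y := by
    intro x y hx hy
    have e1 : x = x₁ + ((⟨x - x₁, hx⟩ : K) : J) := by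
      show x = x₁ + (x - x₁)
      abel
    have e2 : y = x₂ + ((⟨y - x₂, hy⟩ : K) : J) := by
      show y = x₂ + (y - x₂)
      abel
    have e3 : x + y = x₁ + x₂ + (((⟨x - x₁, hx⟩ : K) + (⟨y - x₂, hy⟩ : K) : K) : J) := by
      show x + y = x₁ + x₂ + ((x - x₁) + (y - x₂))
      abel
    rw [e3, h.2.2.1, AddChar.map_add_eq_mul]
    conv_rhs => rw [e1, e2, h₁.2.2.1, h₂.2.2.1]
    field_simp
  refine ⟨φ (x₁ + x₂) / (s₁ x₁ * s₂ x₂), ⟨?_, fun σ hσ => ?_⟩, hform⟩
  · rw [← A.valuation_le_one_iff, map_div₀, map_mul, h₁.2.1 _ h11, h₂.2.1 _ h22, h.2.1 _ h12,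
      mul_one, div_one]
  · have hσ1 : σ • x₁ - x₁ ∈ K := D.sub_mem σ hσ x₁
    have hσ2 : σ • x₂ - x₂ ∈ K := D.sub_mem σ hσ x₂
    have e := hform (σ • x₁) (σ • x₂) hσ1 hσ2
    rw [← smul_add, h.2.2.2 σ hσ, h₁.2.2.2 σ hσ, h₂.2.2.2 σ hσ] at e
    rw [map_div₀, map_mul, e]
    have hne1' : σ (s₁ x₁) ≠ 0 := fun h0 => hne1 ((map_eq_zero σ).mp h0)
    have hne2' : σ (s₂ x₂) ≠ 0 := fun h0 => hne2 ((map_eq_zero σ).mp h0)
    field_simp

/-- the comultiplication of `φ` lies in `H ⊗ H` (any finite index type) -/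
def HasComul (H : Set (J → Qb)) (φ : J → Qb) : Prop :=
  ∃ (ι : Type) (_ : Fintype ι) (ψ ψ' : ι → J → Qb), (∀ i, ψ i ∈ H) ∧ (∀ i, ψ' i ∈ H) ∧
    ∀ x y : J, φ (x + y) = ∑ i, ψ i x * ψ' i y

theorem HasComul.to_fin {H : Set (J → Qb)} {φ : J → Qb} (h : HasComul H φ) :
    ∃ (n : ℕ) (ψ ψ' : Fin n → J → Qb), (∀ i, ψ i ∈ H) ∧ (∀ i, ψ' i ∈ H) ∧
      ∀ x y : J, φ (x + y) = ∑ i, ψ i x * ψ' i y := by
  obtain ⟨ι, _, ψ, ψ', h1, h2, h3⟩ := h
  let e := Fintype.equivFin ι
  refine ⟨Fintype.card ι, fun i => ψ (e.symm i), fun i => ψ' (e.symm i), fun i => h1 _,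
    fun i => h2 _, fun x y => ?_⟩
  rw [h3]
  exact Fintype.sum_equiv e _ _ (fun i => by simp)

theorem mem_coset_out (x : J) : x - Quotient.out (QuotientAddGroup.mk x : J ⧸ K) ∈ K := by
  have h1 : (QuotientAddGroup.mk (Quotient.out (QuotientAddGroup.mk x : J ⧸ K)) : J ⧸ K) =
      QuotientAddGroup.mk x := Quotient.out_eq' _
  rw [QuotientAddGroup.eq] at h1
  rw [sub_eq_neg_add]
  exact h1

theorem eq_mk_of_sub_out_mem {x : J} {c : J ⧸ K} (h : x - Quotient.out c ∈ K) :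
    c = QuotientAddGroup.mk x := by
  have h1 : (QuotientAddGroup.mk (Quotient.out c) : J ⧸ K) = QuotientAddGroup.mk x := by
    rw [QuotientAddGroup.eq, ← sub_eq_neg_add]
    exact h
  rw [← h1]
  exact (Quotient.out_eq' c).symm

theorem genSet_comul [Finite J] (D : KumData A K) {φ : J → Qb} (hφ : φ ∈ genSet A K) :
    HasComul (ordSet A K) φ := by
  classical
  haveI : Fintype (J ⧸ K) := Fintype.ofFinite _
  obtain ⟨x₀, χ, h⟩ := hφ
  have hs1 : ∀ c : J ⧸ K, ∃ s : J → Qb, IsGen A K (Quotient.out c) χ s :=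
    fun c => D.exists_isGen _ χ
  have hs2 : ∀ c : J ⧸ K, ∃ s : J → Qb, IsGen A K (x₀ - Quotient.out c) χ s :=
    fun c => D.exists_isGen _ χ
  choose s₁ hs₁ using hs1
  choose s₂ hs₂ using hs2
  have hr : ∀ c : J ⧸ K, ∃ r ∈ A0 A, ∀ x y, x - Quotient.out c ∈ K →
      y - (x₀ - Quotient.out c) ∈ K → φ (x + y) = r * s₁ c x * s₂ c y :=
    fun c => h.comul_coeff D (hs₁ c) (hs₂ c) (by
      rw [add_sub_cancel, sub_self]; exact K.zero_mem)
  choose r hr0 hr using hr
  refine ⟨J ⧸ K, inferInstance, fun c x => r c * s₁ c x, fun c => s₂ c,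
    fun c => ordSet_smul (hr0 c) (subset_ordSet ⟨_, χ, hs₁ c⟩),
    fun c => subset_ordSet ⟨_, χ, hs₂ c⟩, fun x y => ?_⟩
  beta_reduce
  rw [Finset.sum_eq_single (QuotientAddGroup.mk x : J ⧸ K)]
  · have hx := mem_coset_out (K := K) x
    by_cases hy : y - (x₀ - Quotient.out (QuotientAddGroup.mk x : J ⧸ K)) ∈ K
    · exact hr _ x y hx hy
    · rw [(hs₂ _).1 y hy, mul_zero]
      refine h.1 _ (fun hxy => hy ?_)
      have := K.sub_mem hxy hx
      have e : x + y - x₀ - (x - Quotient.out (QuotientAddGroup.mk x : J ⧸ K)) =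
          y - (x₀ - Quotient.out (QuotientAddGroup.mk x : J ⧸ K)) := by abel
      rwa [e] at this
  · intro c _ hc
    have : x - Quotient.out c ∉ K := fun hx => hc (eq_mk_of_sub_out_mem hx)
    rw [(hs₁ c).1 x this, mul_zero, zero_mul]
  · intro hx
    exact absurd (Finset.mem_univ _) hx

theorem ordSet_comul [Finite J] (D : KumData A K) {φ : J → Qb} (hφ : φ ∈ ordSet A K) :
    HasComul (ordSet A K) φ := by
  refine ordSet_induction (P := fun φ => HasComul (ordSet A K) φ) ?_ ?_ ?_ ?_ hφ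
  · exact fun φ hφ => genSet_comul D hφ
  · exact ⟨Empty, inferInstance, fun i => i.elim, fun i => i.elim, fun i => i.elim,
      fun i => i.elim, fun x y => by simp⟩
  · rintro φ ψ ⟨ι, _, a, a', ha, ha', h1⟩ ⟨κ, _, b, b', hb, hb', h2⟩
    refine ⟨ι ⊕ κ, inferInstance, Sum.elim a b, Sum.elim a' b', ?_, ?_, fun x y => ?_⟩
    · rintro (i | i)
      · exact ha i
      · exact hb i
    · rintro (i | i)
      · exact ha' i
      · exact hb' i
    · beta_reduce
      rw [Fintype.sum_sum_type]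
      simp only [Sum.elim_inl, Sum.elim_inr]
      rw [← h1, ← h2]
  · rintro r hr φ ⟨ι, _, a, a', ha, ha', h1⟩
    refine ⟨ι, inferInstance, fun i x => r * a i x, a', fun i => ordSet_smul hr (ha i), ha',
      fun x y => ?_⟩
    beta_reduce
    rw [h1, Finset.mul_sum]
    exact Finset.sum_congr rfl fun i _ => (mul_assoc _ _ _).symm

/-! ### fullness -/

/-- rank one: every element of `ℚ̄` becomes integral after multiplication by a power of `p` -/
theorem exists_pow_mul_le {p : ℕ} (hp : p.Prime) (hA : A.LiesOverPrime p) (r : Qb) :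
    ∃ n : ℕ, ∀ m, n ≤ m → A.valuation (((p : ℕ) : Qb) ^ m * r) ≤ 1 := by
  have hp1 : A.valuation ((p : ℕ) : Qb) ≤ 1 := le_of_lt ((A.mem_nonunits_iff).mp hA)
  rcases eq_or_ne r 0 with rfl | hr
  · exact ⟨0, fun m _ => by rw [mul_zero, map_zero]; exact zero_le_one⟩
  haveI : Algebra.IsAlgebraic ℚ Qb := AlgebraicClosure.isAlgebraic ℚ
  obtain ⟨n, hn⟩ := Fermat.Agent.S19lib.F.exists_pow_le A hp hA hA (inv_ne_zero hr)
  refine ⟨n, fun m hm => ?_⟩
  have hr0 : A.valuation r ≠ 0 := (Valuation.ne_zero_iff _).mpr hr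
  rw [map_mul, map_pow]
  calc A.valuation ((p : ℕ) : Qb) ^ m * A.valuation r
      ≤ A.valuation ((p : ℕ) : Qb) ^ n * A.valuation r :=
        mul_le_mul_left (pow_le_pow_of_le_one zero_le hp1 hm) _
    _ ≤ A.valuation r⁻¹ * A.valuation r := mul_le_mul_left hn _
    _ = 1 := by rw [map_inv₀, inv_mul_cancel₀ hr0]

/-- a uniform exponent for a finite family -/
theorem exists_pow_mul_le_fintype {p : ℕ} (hp : p.Prime) (hA : A.LiesOverPrime p) {ι : Type*}
    [Finite ι] (r : ι → Qb) : ∃ n : ℕ, ∀ i, A.valuation (((p : ℕ) : Qb) ^ n * r i) ≤ 1 := by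
  classical
  haveI := Fintype.ofFinite ι
  choose n hn using fun i => exists_pow_mul_le hp hA (r i)
  exact ⟨Finset.univ.sup n, fun i => hn i _ (Finset.le_sup (Finset.mem_univ i))⟩

/-- **fullness**: every `I_A`-equivariant function is in the order up to a power of `p` -/
theorem ordSet_full [Finite J] {p : ℕ} (hp : p.Prime) (hA : A.LiesOverPrime p) (D : KumData A K)
    (φ : J → Qb) (hφ : ∀ σ ∈ IA A, ∀ x, φ (σ • x) = σ (φ x)) :
    ∃ n : ℕ, (fun x => ((p : ℕ) : Qb) ^ n * φ x) ∈ ordSet A K := by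
  classical
  haveI : Fintype (J ⧸ K) := Fintype.ofFinite _
  haveI : Fintype K := Fintype.ofFinite _
  haveI : Fintype (AddChar K Qb) := Fintype.ofFinite _
  choose s hs using fun cχ : (J ⧸ K) × AddChar K Qb => D.exists_isGen (Quotient.out cχ.1) cχ.2
  -- the Fourier coefficients
  set a : (J ⧸ K) × AddChar K Qb → Qb := fun cχ =>
    (Nat.card K : Qb)⁻¹ * ∑ z : K, φ (Quotient.out cχ.1 + z) * cχ.2 (-z) with ha
  set r : (J ⧸ K) × AddChar K Qb → Qb := fun cχ => a cχ / s cχ (Quotient.out cχ.1) with hr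
  have hs0 : ∀ cχ, s cχ (Quotient.out cχ.1) ≠ 0 := fun cχ =>
    (hs cχ).ne_zero (by rw [sub_self]; exact K.zero_mem)
  -- the expansion
  have hexp : ∀ x, φ x = ∑ cχ : (J ⧸ K) × AddChar K Qb, r cχ * s cχ x := by
    intro x
    rw [Fintype.sum_prod_type, Finset.sum_eq_single (QuotientAddGroup.mk x : J ⧸ K)]
    · set c₀ : J ⧸ K := QuotientAddGroup.mk x with hc₀
      have hx := mem_coset_out (K := K) x
      set y₀ : K := ⟨x - Quotient.out c₀, hx⟩ with hy₀
      have ex : x = Quotient.out c₀ + (y₀ : J) := by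
        show x = Quotient.out c₀ + (x - Quotient.out c₀)
        abel
      have h1 : ∀ χ : AddChar K Qb, r (c₀, χ) * s (c₀, χ) x = a (c₀, χ) * χ y₀ := by
        intro χ
        rw [hr]
        beta_reduce
        conv_lhs => rw [ex, (hs (c₀, χ)).2.2.1]
        have := hs0 (c₀, χ)
        field_simp
      simp_rw [h1]
      have h2 := fourier_inversion (fun z : K => φ (Quotient.out c₀ + z)) y₀
      rw [← ex] at h2
      exact h2
    · intro c _ hc
      refine Finset.sum_eq_zero fun χ _ => ?_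
      have : x - Quotient.out c ∉ K := fun hx => hc (eq_mk_of_sub_out_mem hx)
      rw [(hs (c, χ)).1 x this, mul_zero]
    · intro h
      exact absurd (Finset.mem_univ _) h
  -- the coefficients are inertia-fixed
  have hfix : ∀ cχ, ∀ σ ∈ IA A, σ (r cχ) = r cχ := by
    rintro ⟨c, χ⟩ σ hσ
    have hδ : σ • Quotient.out c - Quotient.out c ∈ K := D.sub_mem σ hσ _
    set δ : K := ⟨σ • Quotient.out c - Quotient.out c, hδ⟩ with hδ'
    have eσ : σ • Quotient.out c = Quotient.out c + (δ : J) := by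
      show σ • Quotient.out c = Quotient.out c + (σ • Quotient.out c - Quotient.out c)
      abel
    -- the bijection `z ↦ δ + σ z` of `K`
    let e : K ≃ K :=
      { toFun := fun z => δ + ⟨σ • (z : J), D.smul_mem hσ z.2⟩
        invFun := fun z => ⟨σ⁻¹ • ((z : J) - δ), D.smul_mem ((IA A).inv_mem hσ) (K.sub_mem z.2 δ.2)⟩
        left_inv := fun z => Subtype.ext (by
          show σ⁻¹ • ((δ : J) + σ • (z : J) - δ) = z
          rw [add_sub_cancel_left, inv_smul_smul])
        right_inv := fun z => Subtype.ext (by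
          show (δ : J) + σ • σ⁻¹ • ((z : J) - δ) = z
          rw [smul_inv_smul, add_sub_cancel]) }
    have hnum : σ (∑ z : K, φ (Quotient.out c + z) * χ (-z)) =
        χ δ * ∑ z : K, φ (Quotient.out c + z) * χ (-z) := by
      rw [map_sum, Finset.mul_sum]
      refine Fintype.sum_equiv e _ _ fun z => ?_
      rw [map_mul, ← hφ σ hσ, smul_add, eσ]
      have h1 : σ (χ (-z)) = χ ⟨σ • ((-z : K) : J), D.smul_mem hσ (-z).2⟩ :=
        (D.char_smul σ hσ (-z) _ χ).symm
      have h2 : (⟨σ • ((-z : K) : J), D.smul_mem hσ (-z).2⟩ : K) = δ + -(e z) := by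
        apply Subtype.ext
        show σ • (-(z : J)) = (δ : J) + -((δ : J) + σ • (z : J))
        rw [smul_neg]
        abel
      rw [h1, h2, AddChar.map_add_eq_mul]
      have h3 : Quotient.out c + (δ : J) + σ • (z : J) = Quotient.out c + ((e z : K) : J) := by
        show Quotient.out c + (δ : J) + σ • (z : J) = Quotient.out c + ((δ : J) + σ • (z : J))
        abel
      rw [h3]
      ring
    have hden : σ (s (c, χ) (Quotient.out c)) = s (c, χ) (Quotient.out c) * χ δ := by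
      rw [← (hs (c, χ)).2.2.2 σ hσ, eσ, (hs (c, χ)).2.2.1]
    have hχδ : χ δ ≠ 0 := (AddChar.val_isUnit χ δ).ne_zero
    have := hs0 (c, χ)
    show σ (a (c, χ) / s (c, χ) (Quotient.out c)) = a (c, χ) / s (c, χ) (Quotient.out c)
    rw [map_div₀, hden, ha]
    beta_reduce
    rw [map_mul, hnum, map_inv₀, map_natCast]
    field_simp
  -- a uniform power of `p`
  obtain ⟨n, hn⟩ := exists_pow_mul_le_fintype (A := A) hp hA r
  refine ⟨n, ?_⟩
  have e : (fun x => ((p : ℕ) : Qb) ^ n * φ x) =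
      fun x => ∑ cχ : (J ⧸ K) × AddChar K Qb, (((p : ℕ) : Qb) ^ n * r cχ) * s cχ x := by
    funext x
    rw [hexp x, Finset.mul_sum]
    exact Finset.sum_congr rfl fun cχ _ => (mul_assoc _ _ _).symm
  rw [e]
  refine ordSet_sum _ _ fun cχ _ => ordSet_smul ⟨(A.valuation_le_one_iff _).mp (hn cχ), ?_⟩
    (subset_ordSet ⟨_, cχ.2, hs cχ⟩)
  intro σ hσ
  rw [map_mul, map_pow, map_natCast, hfix cχ σ hσ]

/-! ### the Hopf order -/

/-- **the Kummer Hopf order** on `J` (as the subgroup `⊤`). -/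
def kummerOrder [Finite J] {p : ℕ} (hp : p.Prime) (hA : A.LiesOverPrime p) (D : KumData A K) :
    HopfOrder A p (A0 A) (IA A) (⊤ : AddSubgroup J) where
  H := {ψ | ∃ φ ∈ ordSet A K, ∀ x : (⊤ : AddSubgroup J), ψ x = φ x.1}
  one_mem := ⟨_, ordSet_one D, fun _ => rfl⟩
  add_mem := by
    rintro _ ⟨φ, hφ, h1⟩ _ ⟨φ', hφ', h2⟩
    exact ⟨_, ordSet_add hφ hφ', fun x => by simp only [h1, h2]⟩
  mul_mem := by
    rintro _ ⟨φ, hφ, h1⟩ _ ⟨φ', hφ', h2⟩
    exact ⟨_, ordSet_mul hφ hφ', fun x => by simp only [h1, h2]⟩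
  smul_mem := by
    rintro r hr _ ⟨φ, hφ, h1⟩
    exact ⟨_, ordSet_smul hr hφ, fun x => by simp only [h1]⟩
  equivariant := by
    rintro _ ⟨φ, hφ, h1⟩ σ hσ x y hxy
    rw [h1, h1, hxy]
    exact ordSet_equivariant hφ σ hσ _
  integral := by
    rintro _ ⟨φ, hφ, h1⟩ x
    rw [h1]
    exact ordSet_integral hφ _
  full := by
    intro ψ hψ
    obtain ⟨n, hn⟩ := ordSet_full hp hA D (fun x => ψ ⟨x, AddSubgroup.mem_top x⟩)
      (fun σ hσ x => hψ σ hσ ⟨x, AddSubgroup.mem_top x⟩ ⟨σ • x, AddSubgroup.mem_top _⟩ rfl)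
    exact ⟨n, _, hn, fun x => rfl⟩
  comul := by
    rintro _ ⟨φ, hφ, h1⟩
    obtain ⟨n, ψ, ψ', hψ, hψ', h⟩ := (ordSet_comul D hφ).to_fin
    refine ⟨n, fun i x => ψ i x.1, fun i x => ψ' i x.1, fun i => ⟨ψ i, hψ i, fun _ => rfl⟩,
      fun i => ⟨ψ' i, hψ' i, fun _ => rfl⟩, fun x y => ?_⟩
    rw [h1]
    exact h x.1 y.1
  antipode := by
    rintro _ ⟨φ, hφ, h1⟩
    exact ⟨_, ordSet_antipode hφ, fun x => by simp only [h1]; rfl⟩

end Fermat.Agent.S59lib.R3
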